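import Fermat.Agent.TW.GW.Global

/-!
# Local conditions at the other places above a prime

A condition of triviality on inertia or decomposition at the standard place holds at every place
above the same prime. Used to pass between Selmer conditions.
-/

noncomputable section

namespace Fermat.Agent.TW

open Fermat.Agent.PT Fermat.Agent.PT.Lv

open scoped Pointwise

variable {k : Type*} [Field k] {M : Type*} [AddCommGroup M] [Module k M]
  {ρ : Representation k AG M}

theorem locB1_conj {c : AG → M} (hc : c ∈ Z1 lvQ ρ) {D D' : Subgroup AG} (g : AG)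
    (hD : ∀ s ∈ D', g⁻¹ * s * g ∈ D) (h : c ∈ locB1 ρ D) : c ∈ locB1 ρ D' := by
  obtain ⟨m, hm⟩ := h
  obtain ⟨-, hcm⟩ := mem_Z1.1 hc
  refine ⟨ρ g m - c g, fun s hs => ?_⟩
  have e1 : c (g⁻¹ * s * g) = ρ (g⁻¹ * s * g) m - m := hm _ (hD s hs)
  have e2 : c (s * g) = c (g * (g⁻¹ * s * g)) := by rw [mul_assoc g⁻¹ s g, mul_inv_cancel_left]
  rw [hcm, hcm g, e1, map_sub, ← Module.End.mul_apply, ← map_mul, mul_assoc g⁻¹ s g,
    mul_inv_cancel_left, map_mul, Module.End.mul_apply] at e2
  rw [map_sub, ← sub_eq_zero]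
  rw [← sub_eq_zero] at e2
  rw [← e2]
  abel

theorem locB1_mono {D D' : Subgroup AG} (h : D' ≤ D) {c : AG → M} (hc : c ∈ locB1 ρ D) :
    c ∈ locB1 ρ D' :=
  hc.imp fun _ hm s hs => hm s (h hs)

theorem inQ_le_decQ (q : ℕ) [Fact q.Prime] : inQ q ≤ decQ q := fun _ h =>
  (Gal.mem_inertia_iff.1 h).1

/-- Triviality on the inertia group of one place propagates to every place above the same prime. -/
theorem locB1_inertia_of_place {q : ℕ} (hq : q.Prime) {c : AG → M} (hc : c ∈ Z1 lvQ ρ)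
    {P A : ValuationSubring (AlgebraicClosure ℚ)} (hP : P.LiesOverPrime q) (hA : A.LiesOverPrime q)
    (h : c ∈ locB1 ρ (P.inertiaSubgroupIn ℚ)) : c ∈ locB1 ρ (A.inertiaSubgroupIn ℚ) := by
  obtain ⟨g, hg⟩ := Gal.exists_smul_eq hq hA hP
  refine locB1_conj hc g⁻¹ (fun s hs => ?_) h
  have h1 := Gal.conj_mem_inertia hs g
  rw [hg] at h1
  rwa [inv_inv]

/-- Triviality on inertia at the standard place propagates to every place. -/
theorem locB1_inertia_of_inQ {q : ℕ} [Fact q.Prime] {c : AG → M} (hc : c ∈ Z1 lvQ ρ)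
    (h : c ∈ locB1 ρ (inQ q)) {A : ValuationSubring (AlgebraicClosure ℚ)} (hA : A.LiesOverPrime q) :
    c ∈ locB1 ρ (A.inertiaSubgroupIn ℚ) :=
  locB1_inertia_of_place Fact.out hc padicPlace_liesOverPrime hA h

/-- Triviality on the decomposition group at the standard place propagates to every place. -/
theorem locB1_decomposition_of_decQ {q : ℕ} [Fact q.Prime] {c : AG → M} (hc : c ∈ Z1 lvQ ρ)
    (h : c ∈ locB1 ρ (decQ q)) {A : ValuationSubring (AlgebraicClosure ℚ)}
        (hA : A.LiesOverPrime q) :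
    c ∈ locB1 ρ (A.decompositionSubgroup ℚ) := by
  obtain ⟨g, hg⟩ := Gal.exists_smul_eq (Fact.out : q.Prime) hA (padicPlace_liesOverPrime (q := q))
  refine locB1_conj hc g⁻¹ (fun s hs => ?_) h
  have h1 := Gal.conj_mem_decomposition hs g
  rw [hg] at h1
  rwa [inv_inv]

/-- A class unramified outside `T` and locally trivial on inertia at the standard places of
`T ∖ T'` is unramified outside `T'`. -/
theorem mem_selCocycles_of_inQ {T T' : Finset Nat.Primes} {c : AG → M}
    (hc : c ∈ selCocycles ρ (natSet T))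
    (h : ∀ r ∈ T, r ∉ T' → c ∈ locB1 ρ (inQ (r : ℕ))) : c ∈ selCocycles ρ (natSet T') := by
  refine ⟨hc.1, (mem_unrOutside ρ).2 fun q hq hqT' P hP => ?_⟩
  by_cases hqT : q ∈ natSet T
  · have : Fact q.Prime := ⟨hq⟩
    obtain ⟨r, hr, rfl⟩ := Finset.mem_map.1 hqT
    exact locB1_inertia_of_inQ hc.1 (h r hr fun hr' => hqT' (mem_natSet.2 hr')) hP
  · exact (mem_unrOutside ρ).1 hc.2 q hq hqT P hP

end Fermat.Agent.TW
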