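import Fermat.Agent.TW.GW.Global

/-!
# The local pairings and the reciprocity law for cup products

The local pairing of classes of two modules paired into `μ_p`, and the vanishing of the sum of the
local pairings of global classes. This replaces global duality in the Greenberg–Wiles
inequality.
-/

noncomputable section

namespace Fermat.Agent.TW

open Fermat.Agent.PT Fermat.Agent.PT.Lv

variable {p : ℕ} [Fact p.Prime] {k : Type*} [Field k] {M M' : Type*} [AddCommGroup M] [Module k M]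
  [AddCommGroup M'] [Module k M'] {ρ : Representation k AG M} {ρ' : Representation k AG M'}
  {β : M →+ M' →+ ZMod p}

/-- A pairing into `μ_p` compatible with the actions. -/
structure IsMuPairing (p : ℕ) [Fact p.Prime] (ρ : Representation k AG M)
    (ρ' : Representation k AG M') (β : M →+ M' →+ ZMod p) : Prop where
  equivariant : ∀ g m m', β (ρ g m) (ρ' g m') = muG p g (β m m')
  level : ∃ U ∈ lvQ, ∀ s ∈ U, ρ' s = 1

variable (hP : IsMuPairing p ρ ρ' β) (lam : ∀ r : Nat.Primes,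
    H2 (LQ (r : ℕ)) (muQ p (r : ℕ)) →ₗ[ZMod p] ZMod p)

/-- The action of the local group. -/
abbrev repL (ρ : Representation k AG M) (r : Nat.Primes) : Representation k (GamQ (r : ℕ)) M :=
  ρ.comp (localGaloisToGlobal (r : ℕ))

include hP in
theorem IsMuPairing.equivariant_loc (r : Nat.Primes) (g : GamQ (r : ℕ)) (m : M) (m' : M') :
    β (repL ρ r g m) (repL ρ' r g m') = muQ p (r : ℕ) g (β m m') :=
  hP.equivariant _ m m'

include hP in
theorem IsMuPairing.level_loc (r : Nat.Primes) :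
    ∃ U ∈ LQ (r : ℕ), ∀ s ∈ U, repL ρ' r s = 1 := by
  obtain ⟨U, hU, h⟩ := hP.level
  exact ⟨_, compat_local (r : ℕ) U hU, fun s hs => h _ hs⟩

/-- The local class of the cup product of two cocycles of the decomposition group. -/
def locCup (r : Nat.Primes) {x : decQ (r : ℕ) → M}
    (hx : x ∈ Z1 (lvD (decQ (r : ℕ))) (resRep ρ (decQ (r : ℕ)))) {y : decQ (r : ℕ) → M'}
    (hy : y ∈ Z1 (lvD (decQ (r : ℕ))) (resRep ρ' (decQ (r : ℕ)))) :
    H2 (LQ (r : ℕ)) (muQ p (r : ℕ)) :=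
  cupH2 β (hP.equivariant_loc r) (hP.level_loc r) (pullQ_mem_Z1 hx) (pullQ_mem_Z1 hy)

/-- The local pairing at a prime. -/
def pairQ (r : Nat.Primes) :
    Z1 (lvD (decQ (r : ℕ))) (resRep ρ (decQ (r : ℕ))) →+
      Z1 (lvD (decQ (r : ℕ))) (resRep ρ' (decQ (r : ℕ))) →+ ZMod p :=
  AddMonoidHom.mk' (fun x => AddMonoidHom.mk' (fun y => lam r (locCup hP r x.2 y.2))
    fun y y' => by
      rw [← map_add]
      exact congrArg _ (cupH2_add_right β (hP.equivariant_loc r) (hP.level_loc r)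
        (pullQ_mem_Z1 x.2) (pullQ_mem_Z1 y.2) (pullQ_mem_Z1 y'.2)))
    fun x x' => AddMonoidHom.ext fun y => by
      simp only [AddMonoidHom.mk'_apply, AddMonoidHom.add_apply]
      rw [← map_add]
      exact congrArg _ (cupH2_add_left β (hP.equivariant_loc r) (hP.level_loc r)
        (pullQ_mem_Z1 x.2) (pullQ_mem_Z1 x'.2) (pullQ_mem_Z1 y.2))

theorem pairQ_apply (r : Nat.Primes) (x : Z1 (lvD (decQ (r : ℕ))) (resRep ρ (decQ (r : ℕ))))
    (y : Z1 (lvD (decQ (r : ℕ))) (resRep ρ' (decQ (r : ℕ)))) :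
    pairQ hP lam r x y = lam r (locCup hP r x.2 y.2) := rfl

/-- The local pairing only depends on classes. -/
theorem pairQ_congr (r : Nat.Primes) (x x' : Z1 (lvD (decQ (r : ℕ))) (resRep ρ (decQ (r : ℕ))))
    (y y' : Z1 (lvD (decQ (r : ℕ))) (resRep ρ' (decQ (r : ℕ))))
    (hx : (x : decQ (r : ℕ) → M) - x' ∈ B1 (resRep ρ (decQ (r : ℕ))))
    (hy : (y : decQ (r : ℕ) → M') - y' ∈ B1 (resRep ρ' (decQ (r : ℕ)))) :
    pairQ hP lam r x y = pairQ hP lam r x' y' := by
  obtain ⟨m, hm⟩ := hx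
  obtain ⟨m', hm'⟩ := hy
  refine congrArg _ (cupH2_congr_cls β (hP.equivariant_loc r) (hP.level_loc r)
    (pullQ_mem_Z1 x.2) (pullQ_mem_Z1 x'.2) (pullQ_mem_Z1 y.2) (pullQ_mem_Z1 y'.2)
    (m := m) (m' := m') ?_ ?_)
  · funext τ
    have h := congrFun hm (toDec (r : ℕ) τ)
    simp only [d0_apply, Pi.sub_apply] at h
    simp only [pullQ, Function.comp_apply, Pi.add_apply, d0_apply]
    rw [eq_sub_iff_add_eq'] at h
    exact h.symm
  · funext τ
    have h := congrFun hm' (toDec (r : ℕ) τ)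
    simp only [d0_apply, Pi.sub_apply] at h
    simp only [pullQ, Function.comp_apply, Pi.add_apply, d0_apply]
    rw [eq_sub_iff_add_eq'] at h
    exact h.symm

/-- Restriction of global cocycles to a decomposition group. -/
def resQ (ρ : Representation k AG M) (r : Nat.Primes) :
    Z1 lvQ ρ →ₗ[k] Z1 (lvD (decQ (r : ℕ))) (resRep ρ (decQ (r : ℕ))) where
  toFun x := ⟨fun s => (x : AG → M) s, resDec_mem_Z1 x.2 _⟩
  map_add' _ _ := rfl
  map_smul' _ _ := rfl

theorem coe_resQ (r : Nat.Primes) (x : Z1 lvQ ρ) (s : decQ (r : ℕ)) :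
    ((resQ ρ r x : Z1 (lvD (decQ (r : ℕ))) (resRep ρ (decQ (r : ℕ)))) : decQ (r : ℕ) → M) s =
      (x : AG → M) s := rfl

theorem cupH2_loc (r : Nat.Primes) (x : Z1 lvQ ρ) (y : Z1 lvQ ρ') :
    locQ p (r : ℕ) (cupH2 β hP.equivariant hP.level x.2 y.2) =
      locCup hP r (resQ ρ r x).2 (resQ ρ' r y).2 := rfl

variable {T : Finset Nat.Primes}

/-- Reciprocity: the local pairings of two classes unramified outside `T` sum to zero. -/
theorem sum_pairQ_eq_zero (hpT : pP p ∈ T)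
    (hrec : ∀ (S : Finset Nat.Primes) (z : H2 LG (muG p)),
      (∀ q, q ∉ S → locQ p (q : ℕ) z = 0) → ∑ q ∈ S, lam q (locQ p (q : ℕ) z) = 0)
    (hρ : ∃ U ∈ LS T, ∀ s ∈ U, ρ s = 1) (hρ' : ∃ U ∈ LS T, ∀ s ∈ U, ρ' s = 1)
    {x : Z1 lvQ ρ} (hx : (x : AG → M) ∈ selCocycles ρ (natSet T))
    {y : Z1 lvQ ρ'} (hy : (y : AG → M') ∈ selCocycles ρ' (natSet T)) :
    ∑ r ∈ T, pairQ hP lam r (resQ ρ r x) (resQ ρ' r y) = 0 := by
  have h := hrec T (cupH2 β hP.equivariant hP.level x.2 y.2) fun r hr =>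
    locQ_eq_zero_of_LS hpT
      (cupFn_mem_Z2 β hP.equivariant hρ' (exists_level_LS hx hρ) (exists_level_LS hy hρ'))
      _ hr
  rw [← h]
  exact Finset.sum_congr rfl fun r _ => by rw [pairQ_apply, cupH2_loc]

end Fermat.Agent.TW
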