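import Mathlib.LinearAlgebra.Dimension.Constructions
import Mathlib.LinearAlgebra.FiniteDimensional.Lemmas
import Fermat.Agent.TW.GW.Pairing
import Fermat.Agent.TW.Local.Good
import Fermat.Agent.TW.Local.Homs

/-!
# The local pairing at a good prime

At a prime congruent to one where Frobenius is regular, the pairing of a class with an unramified
class is the product of a ramification coordinate and the value at Frobenius. Used when an
auxiliary prime is added to a dual Selmer space.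
-/

noncomputable section

namespace Fermat.Agent.TW

open Fermat.Agent.PT Fermat.Agent.PT.Lv Module

variable {p : ℕ} [Fact p.Prime]

theorem cup11_self {q : ℕ} [Fact q.Prime] (hodd : p ≠ 2) {V : Subgroup (GamQ q)}
    (hμ : (cycLoc q p).MuFix V)
    (f : ↥(Z1 ((LQ q).comap V.subtype) (triv (ZMod p) ↥V))) :
    cup11 ((LQ q).comap V.subtype) f f = 0 := by
  obtain ⟨r, hr⟩ := exists_root_hom hμ f.2
  rw [← Cyc.sym_self hμ hodd r, cup11, Cyc.sym]
  refine mk2_congr (funext fun gh => ?_)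
  simp only [Cyc.symC, hr]

/-- Local homomorphisms at a prime congruent to one are spanned by an unramified one and a
complementary one. -/
theorem exists_hom_basis {q : ℕ} [Fact q.Prime] (hodd : p ≠ 2) (hqp : q ≠ p) (hq1 : p ∣ q - 1)
    (u : ↥(Z1 ((LQ q).comap (⊤ : Subgroup (GamQ q)).subtype) (triv (ZMod p) _))) (hu : u ≠ 0) :
    ∃ t, cup11 ((LQ q).comap (⊤ : Subgroup (GamQ q)).subtype) t u ≠ 0 ∧
      ∀ f, ∃ a b : ZMod p, f = a • t + b • u := by
  have hμ := muFix_top hqp hq1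
  obtain ⟨t, ht⟩ := exists_cup11_ne_zero hodd (LQ q).top_mem hμ u hu
  have hanti : cup11 _ t u = -cup11 _ u t := by
    have h := cup11_self hodd hμ (t + u)
    rw [cup11_add_left, cup11_add_right, cup11_add_right, cup11_self hodd hμ, cup11_self hodd hμ,
      zero_add, add_zero] at h
    exact eq_neg_of_add_eq_zero_left h
  refine ⟨t, by rwa [hanti, neg_ne_zero], ?_⟩
  obtain ⟨hfin, hr⟩ := finrank_homLocal (p := p) hodd (LQ q).top_mem hμ
  rw [if_neg hqp, add_zero] at hr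
  have hind : LinearIndependent (ZMod p) ![t, u] := by
    refine LinearIndependent.pair_iff.2 fun a b hab => ?_
    have ha : a = 0 := by
      by_contra ha
      have h : t = (-(a⁻¹ * b)) • u := by
        have e := congrArg (fun z => a⁻¹ • z) hab
        simp only [smul_add, smul_smul, inv_mul_cancel₀ ha, one_smul, smul_zero] at e
        exact (eq_neg_of_add_eq_zero_left e).trans (neg_smul _ _).symm
      rw [h, cup11_smul_right, cup11_self hodd hμ, smul_zero] at ht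
      exact ht rfl
    subst ha
    rw [zero_smul, zero_add] at hab
    exact ⟨rfl, (smul_eq_zero.1 hab).resolve_right hu⟩
  intro f
  have htop := hind.span_eq_top_of_card_eq_finrank (by rw [hr, Fintype.card_fin])
  have hf : f ∈ Submodule.span (ZMod p) (Set.range ![t, u]) := htop ▸ Submodule.mem_top
  rw [Matrix.range_cons_cons_empty, Submodule.mem_span_pair] at hf
  obtain ⟨a, b, e⟩ := hf
  exact ⟨a, b, e.symm⟩

/-- The product of two local homomorphisms is a two-cocycle in the roots of unity, if the local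
Galois group fixes them. -/
theorem mul_mem_Z2_muQ {q : ℕ} [Fact q.Prime]
    (hμ : (cycLoc q p).MuFix (⊤ : Subgroup (GamQ q)))
    (t : ↥(Z1 ((LQ q).comap (⊤ : Subgroup (GamQ q)).subtype) (triv (ZMod p) _)))
    {u : decQ q → ZMod p} (huc : Con1 (lvD (decQ q)) u) (hum : ∀ a b, u (a * b) = u a + u b) :
    (fun gh : GamQ q × GamQ q =>
      (t : (⊤ : Subgroup (GamQ q)) → ZMod p) ⟨gh.1, trivial⟩ * u (toDec q gh.2)) ∈
      Z2 (LQ q) (muQ p q) := by
  obtain ⟨⟨V, hV, htV⟩, htm⟩ := mem_Z1_triv.1 t.2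
  obtain ⟨W, hW, hWV⟩ := hV
  obtain ⟨Y, hY, huY⟩ := (huc.precomp (compat_toDec (q := q)))
  refine mem_Z2.2 ⟨⟨W ⊓ Y, (LQ _).inf_mem hW hY, fun g h s hs s' hs' => ?_⟩, fun g h j => ?_⟩
  · dsimp only
    rw [show (⟨g * s, trivial⟩ : (⊤ : Subgroup (GamQ q))) =
        ⟨g, trivial⟩ * ⟨s, trivial⟩ from rfl, htV _ _ (hWV hs.1),
      show u (toDec q (h * s')) = u (toDec q h) from huY h s' hs'.2]
  · dsimp only
    have h1 : muQ p q g = LinearMap.id := by
      refine LinearMap.ext fun z => ?_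
      show (cycLoc q p).rep g z = z
      rw [Cyc.rep_apply, hμ g trivial, Units.val_one, one_mul]
    rw [h1, LinearMap.id_apply, map_mul, hum,
      show (⟨g * h, trivial⟩ : (⊤ : Subgroup (GamQ q))) =
        ⟨g, trivial⟩ * ⟨h, trivial⟩ from rfl, htm]
    ring

variable {k : Type} [Field k] [Finite k] [Algebra (ZMod p) k] [CharP k p]
  {M M' : Type} [AddCommGroup M] [Module k M] [FiniteDimensional k M]
  [AddCommGroup M'] [Module k M'] [FiniteDimensional k M']
  {ρ : Representation k AG M} {ρ' : Representation k AG M'} {β : M →+ M' →+ ZMod p}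
  (hP : IsMuPairing p ρ ρ' β) (lam : ∀ r : Nat.Primes,
    H2 (LQ (r : ℕ)) (muQ p (r : ℕ)) →ₗ[ZMod p] ZMod p)

/-- A homomorphism killing inertia is a multiple of the normalised unramified homomorphism. -/
theorem eq_unram_mul {q : ℕ} [Fact q.Prime] {k : Type*} [CommRing k] [Algebra (ZMod p) k] {φ : AG}
    (hφ : (padicPlace q).IsFrobeniusAt φ q) {u : decQ q → ZMod p} (huc : Con1 (lvD (decQ q)) u)
    (hum : ∀ a b, u (a * b) = u a + u b)
    (huI : ∀ σ : decQ q, (σ : AG) ∈ inQ q → u σ = 0)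
    (huφ : u ⟨φ, (Gal.isFrobeniusAt_iff.1 hφ).1⟩ = 1) {h' : decQ q → k}
    (hc' : Con1 (lvD (decQ q)) h') (hmul' : ∀ a b, h' (a * b) = h' a + h' b)
    (hI0 : ∀ σ : decQ q, (σ : AG) ∈ inQ q → h' σ = 0) :
    ∀ σ, h' σ = algebraMap (ZMod p) k (u σ) * h' ⟨φ, (Gal.isFrobeniusAt_iff.1 hφ).1⟩ := by
  have hφD := (Gal.isFrobeniusAt_iff.1 hφ).1
  let D : decQ q → k := fun σ => h' σ - algebraMap (ZMod p) k (u σ) * h' ⟨φ, hφD⟩
  have hDm : ∀ a b, D (a * b) = D a + D b := fun a b => by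
    simp only [D, hmul', hum, map_add]; ring
  intro σ
  obtain ⟨V, ⟨N, hN, hNV⟩, hV⟩ :=
    (hc'.map₂ (huc.comp fun v => algebraMap (ZMod p) k v * h' ⟨φ, hφD⟩) fun a b => a - b :
      Con1 (lvD (decQ q)) D)
  obtain ⟨i, ι, hι, hs⟩ := exists_frob_pow_mul Fact.out padicPlace_liesOverPrime hφ hN σ.2
  have hιD : ι ∈ decQ q := (Gal.mem_inertia_iff.1 hι).1
  have h1 : D σ = D (⟨φ, hφD⟩ ^ i * ⟨ι, hιD⟩) := by
    have := hV (⟨φ, hφD⟩ ^ i * ⟨ι, hιD⟩) ((⟨φ, hφD⟩ ^ i * ⟨ι, hιD⟩)⁻¹ * σ)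
      (hNV (by simpa [Subgroup.mem_subgroupOf] using hs))
    rwa [mul_inv_cancel_left] at this
  have hDφ : ∀ i : ℕ, D (⟨φ, hφD⟩ ^ i) = 0 := by
    intro i
    induction i with
    | zero =>
      have := hDm 1 1
      rw [mul_one, left_eq_add] at this
      rw [pow_zero, this]
    | succ i ih =>
      rw [pow_succ, hDm, ih, zero_add]
      simp [D, huφ]
  rw [← sub_eq_zero]
  show D σ = 0
  rw [h1, hDm, hDφ, zero_add]
  simp [D, hI0 ⟨ι, hιD⟩ hι, huI ⟨ι, hιD⟩ hι]

omit [Finite k] [Algebra (ZMod p) k] [CharP k p] [FiniteDimensional k M] [Fact p.Prime] in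
/-- A vector fixed by Frobenius is fixed by the decomposition group, if inertia acts trivially. -/
theorem apply_eq_self_of_frob (π : Representation k AG M) {q : ℕ} [Fact q.Prime] {φ : AG}
    (hφ : (padicPlace q).IsFrobeniusAt φ q) {U : Subgroup AG} (hU : U ∈ lvQ)
    (hπU : ∀ s ∈ U, π s = 1) (hI : ∀ s ∈ inQ q, π s = 1) {v : M} (hfix : π φ v = v) {σ : AG}
    (hσ : σ ∈ decQ q) : π σ v = v := by
  obtain ⟨i, ι, hι, hs⟩ := exists_frob_pow_mul Fact.out padicPlace_liesOverPrime hφ hU hσ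
  have h1 : π σ = π φ ^ i := by
    rw [show σ = φ ^ i * ι * ((φ ^ i * ι)⁻¹ * σ) by group, map_mul, hπU _ hs, map_mul, hI ι hι,
      mul_one, mul_one, map_pow]
  rw [h1, Module.End.pow_apply, Function.iterate_fixed hfix]

omit [Finite k] [FiniteDimensional k M] in
/-- A multiple of a vector differing from a cocycle by a coboundary is a local cocycle. -/
theorem smul_mem_Z1_of_sub {q : ℕ} [Fact q.Prime] (π : Representation k AG M) {U : Subgroup AG}
    (hU : U ∈ lvQ) (hπU : ∀ s ∈ U, π s = 1) (x : Z1 lvQ π) {h : decQ q → k} {e m : M}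
    (hx : ∀ σ : decQ q, (x : AG → M) σ = h σ • e + (π σ m - m)) :
    (fun σ => h σ • e) ∈ Z1 (lvD (decQ q)) (resRep π (decQ q)) := by
  have e1 : (fun σ => h σ • e) = (fun σ : decQ q => (x : AG → M) σ) -
      d0 (resRep π (decQ q)) m := funext fun σ => by simp [d0_apply, hx σ]
  rw [e1]
  refine sub_mem (resDec_mem_Z1 x.2 _) (mem_Z1.2 ⟨⟨_, comap_mem_comap _ hU,
    fun g s hs => ?_⟩, fun g h => by simp [d0_apply, map_mul]⟩)
  have hs' : (s : AG) ∈ U := hs
  simp [d0_apply, map_mul, hπU _ hs']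

/-- At a good prime the local pairing of a class with an unramified class is the product of a
ramification coordinate and the value at Frobenius. -/
theorem exists_good_pairing (hodd : p ≠ 2) (hlam : ∀ r, Function.Bijective (lam r))
    {r : Nat.Primes} (hrp : (r : ℕ) ≠ p) (hr1 : p ∣ (r : ℕ) - 1)
    {φ : AG} (hφ : (padicPlace (r : ℕ)).IsFrobeniusAt φ (r : ℕ))
    (hlev : ∃ U ∈ lvQ, ∀ s ∈ U, ρ s = 1)
    (hI : ∀ s ∈ inQ (r : ℕ), ρ s = 1) (hI' : ∀ s ∈ inQ (r : ℕ), ρ' s = 1)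
    {e : M} (hker : ∀ v, ρ φ v = v → v ∈ k ∙ e) (hfix : ρ φ e = e)
    (he : e ∉ LinearMap.range (ρ φ - 1))
    {e' : M'} (hker' : ∀ v, ρ' φ v = v → v ∈ k ∙ e') (hfix' : ρ' φ e' = e')
    (ℓ' : M' →ₗ[k] k) (hℓ' : ∀ v, ℓ' (ρ' φ v - v) = 0) (hℓe : ℓ' e' = 1)
    (T : k →+ ZMod p) (hT : ∀ a b : k, β (a • e) (b • e') = T (a * b)) :
    ∃ (c₀ : ZMod p) (ψ : Z1 lvQ ρ → k), c₀ ≠ 0 ∧
      (∀ x, ψ x = 0 → (x : AG → M) ∈ locB1 ρ (inQ (r : ℕ))) ∧
      ∀ y : Z1 lvQ ρ', (y : AG → M') ∈ locB1 ρ' (inQ (r : ℕ)) →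
        (∀ x, pairQ hP lam r (resQ ρ r x) (resQ ρ' r y) = c₀ * T (ψ x * ℓ' ((y : AG → M') φ))) ∧
        (ℓ' ((y : AG → M') φ) = 0 → (y : AG → M') ∈ locB1 ρ' (decQ (r : ℕ))) := by
  classical
  have he' : e' ∉ LinearMap.range (ρ' φ - 1) := fun ⟨v, hv⟩ => one_ne_zero (α := k) (by
    rw [← hℓe, ← hv, LinearMap.sub_apply, Module.End.one_apply, hℓ'])
  have he0 : e' ≠ 0 := fun h => he' (h ▸ zero_mem _)
  obtain ⟨U, hU, hρU⟩ := hlev
  obtain ⟨U', hU', hρU'⟩ := hP.level
  have hμ := muFix_top (p := p) hrp hr1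
  obtain ⟨u, huc, hum, huI, huφ⟩ := exists_unram_hom (p := p) hrp hφ
  set L := (LQ (r : ℕ)).comap (⊤ : Subgroup (GamQ (r : ℕ))).subtype
  let up : ↥(Z1 L (triv (ZMod p) _)) :=
    ⟨fun g => u (toDec (r : ℕ) g), mem_Z1_triv.2
      ⟨huc.precomp (compat_toDec.comp (compat_comap _ _)), fun g h => by
        rw [Subgroup.coe_mul, map_mul, hum, add_comm]⟩⟩
  have hup : up ≠ 0 := fun h => by
    have hz : u = fun _ => 0 := ext_of_toDec huc (con1_const _) fun τ =>
      congrFun (congrArg Subtype.val h) ⟨τ, trivial⟩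
    rw [hz] at huφ
    exact zero_ne_one huφ
  obtain ⟨t, ht, hspan⟩ := exists_hom_basis hodd hrp hr1 up hup
  -- the normalising constant
  have htZ := mul_mem_Z2_muQ hμ t huc hum
  set C₀ := mk2 (LQ (r : ℕ)) (muQ p (r : ℕ)) ⟨_, htZ⟩ with hC₀
  have hC₀res : resTriv hμ C₀ = cup11 L t up := by
    rw [hC₀, resTriv, LinearMap.comp_apply, LinearEquiv.coe_coe, res_mk2, H2eq_mk2]
    rfl
  have hc₀ : lam r C₀ ≠ 0 := fun h => ht (by
    rw [← hC₀res, (hlam r).1 (h.trans (map_zero _).symm), map_zero])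
  -- decompositions
  have hdec : ∀ x : Z1 lvQ ρ, ∃ h : decQ (r : ℕ) → k, ∃ (a b : k) (m : M),
      (∀ τ, h (toDec (r : ℕ) τ) =
          algebraMap (ZMod p) k ((t : (⊤ : Subgroup (GamQ (r : ℕ))) → ZMod p) ⟨τ, trivial⟩) * a +
        algebraMap (ZMod p) k (u (toDec (r : ℕ) τ)) * b) ∧
      Con1 (lvD (decQ (r : ℕ))) h ∧
      ∀ σ : decQ (r : ℕ), (x : AG → M) σ = h σ • e + (ρ σ m - m) := by
    intro x
    obtain ⟨h, hc, hmul, m, hm⟩ := exists_hom_good ρ (Fact.out : p.Prime) r.2 hrp.symm hr1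
      padicPlace_liesOverPrime hφ hU hρU hI hker hfix he x.2
    let bk := Module.finBasis (ZMod p) k
    choose a b hab using fun i => hspan ⟨fun g => bk.repr (h (toDec (r : ℕ) g)) i, mem_Z1_triv.2
      ⟨(hc.precomp (compat_toDec.comp (compat_comap _ _))).comp fun v => bk.repr v i,
        fun g g' => by simp [map_mul, hmul, add_comm]⟩⟩
    refine ⟨h, ∑ i, a i • bk i, ∑ i, b i • bk i, m, fun τ => ?_, hc, hm⟩
    rw [Finset.mul_sum, Finset.mul_sum, ← Finset.sum_add_distrib]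
    refine (bk.sum_repr _).symm.trans (Finset.sum_congr rfl fun i _ => ?_)
    have e1 := congrFun (congrArg Subtype.val (hab i)) ⟨τ, trivial⟩
    simp only [Submodule.coe_add, SetLike.val_smul, Pi.add_apply, Pi.smul_apply, smul_eq_mul,
      up] at e1
    rw [e1, add_smul, ← Algebra.smul_def, ← Algebra.smul_def, smul_smul, smul_smul, mul_comm (a i),
      mul_comm (b i)]
  choose hx a b m hτ hxc hxe using hdec
  refine ⟨lam r C₀, a, hc₀, fun x ha => ⟨m x, fun g hg => ?_⟩, fun y hy => ?_⟩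
  · have hgD : g ∈ decQ (r : ℕ) := (Gal.mem_inertia_iff.1 hg).1
    have he1 : hx x ⟨g, hgD⟩ = 0 := by
      have h1 : hx x = fun σ => algebraMap (ZMod p) k (u σ) * b x := ext_of_toDec (hxc x)
        (huc.comp fun v => algebraMap (ZMod p) k v * b x) fun τ => by
          rw [hτ, ha, mul_zero, zero_add]
      rw [h1]
      beta_reduce
      rw [huI _ hg, map_zero, zero_mul]
    have := hxe x ⟨g, hgD⟩
    rw [he1, zero_smul, zero_add] at this
    exact this
  -- the unramified class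
  obtain ⟨h', hc', hmul', m', hm'⟩ := exists_hom_good ρ' (Fact.out : p.Prime) r.2 hrp.symm hr1
    padicPlace_liesOverPrime hφ hU' hρU' hI' hker' hfix' he' y.2
  have hφD := (Gal.isFrobeniusAt_iff.1 hφ).1
  have hχ : ℓ' ((y : AG → M') φ) = h' ⟨φ, hφD⟩ := by
    rw [hm' ⟨φ, hφD⟩, map_add, map_smul, hℓe, hℓ', add_zero, smul_eq_mul, mul_one]
  have hh' : ∀ σ, h' σ = algebraMap (ZMod p) k (u σ) * ℓ' ((y : AG → M') φ) := by
    rw [hχ]
    obtain ⟨n, hn⟩ := hy
    have hI0 : ∀ σ : decQ (r : ℕ), (σ : AG) ∈ inQ (r : ℕ) → h' σ = 0 := fun σ hσ => by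
      have := hm' σ
      rw [hn _ hσ, hI' _ hσ, Module.End.one_apply, Module.End.one_apply, sub_self, sub_self,
        add_zero, eq_comm, smul_eq_zero] at this
      exact this.resolve_right he0
    exact fun σ => eq_unram_mul hφ huc hum huI huφ hc' hmul' hI0 σ
  refine ⟨fun x => ?_, fun h0 => ⟨m', fun g hg => ?_⟩⟩
  · -- compute the class
    rw [pairQ_apply]
    set μ := ℓ' ((y : AG → M') φ)
    have hTl : ∀ (n : ZMod p) (z : k), T (algebraMap (ZMod p) k n * z) = n * T z := fun n z => by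
      rw [← Algebra.smul_def, ZMod.map_smul, smul_eq_mul]
    have hzero : resTriv hμ (locCup hP r (resQ ρ r x).2 (resQ ρ' r y).2) =
        T (a x * μ) • resTriv hμ C₀ := by
      let X' : decQ (r : ℕ) → M := fun σ => hx x σ • e
      let Y' : decQ (r : ℕ) → M' := fun σ => h' σ • e'
      have hρe : ∀ σ : decQ (r : ℕ), ρ σ e = e ∧ ρ' σ e' = e' := fun σ =>
        ⟨apply_eq_self_of_frob ρ hφ hU hρU hI hfix σ.2,
          apply_eq_self_of_frob ρ' hφ hU' hρU' hI' hfix' σ.2⟩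
      have hX' : X' ∈ Z1 (lvD (decQ (r : ℕ))) (resRep ρ (decQ (r : ℕ))) :=
        smul_mem_Z1_of_sub ρ hU hρU x (hxe x)
      have hY' : Y' ∈ Z1 (lvD (decQ (r : ℕ))) (resRep ρ' (decQ (r : ℕ))) :=
        smul_mem_Z1_of_sub ρ' hU' hρU' y hm'
      have hcls : locCup hP r (resQ ρ r x).2 (resQ ρ' r y).2 = locCup hP r hX' hY' :=
        cupH2_congr_cls β (hP.equivariant_loc r) (hP.level_loc r) _ _ _ _
          (m := m x) (m' := m')
          (funext fun τ => hxe x (toDec (r : ℕ) τ)) (funext fun τ => hm' (toDec (r : ℕ) τ))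
      refine Eq.trans ?_ (congrArg (fun z => T (a x * μ) • z) hC₀res).symm
      rw [hcls, locCup, cupH2, resTriv, LinearMap.comp_apply, LinearEquiv.coe_coe,
        res_mk2, H2eq_mk2]
      have e0 : T (a x * μ) • cup11 L t up =
          T (a x * μ) • cup11 L t up + T (b x * μ) • cup11 L up up := by
        rw [cup11_self hodd hμ, smul_zero, add_zero]
      rw [e0, cup11, cup11, ← map_smul, ← map_smul, ← map_add]
      refine mk2_congr (funext fun ⟨g₁, g₂⟩ => ?_)
      simp only [pp2_apply, LinearMap.id_apply, cupFn, Submodule.coe_add, SetLike.val_smul,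
        Pi.add_apply, Pi.smul_apply, smul_eq_mul, Subgroup.coe_subtype, pullQ, Function.comp_apply,
        X', Y', up, map_smul]
      rw [show (repL ρ' r (g₁ : GamQ (r : ℕ))) e' = e' from (hρe (toDec (r : ℕ) g₁)).2, hT,
        hτ, hh', add_mul, map_add]
      simp only [mul_assoc, hTl]
      rw [mul_left_comm (a x), mul_left_comm (b x), hTl, hTl]
      ring
    have hinj : Function.Injective (resTriv (p := p) hμ) :=
        resTriv_injective (LQ (r : ℕ)).top_mem hμ
      (by rw [Subgroup.index_top]; exact (Fact.out : p.Prime).not_dvd_one)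
    rw [← map_smul] at hzero
    rw [hinj hzero, map_smul, smul_eq_mul, mul_comm]
  · have := hm' ⟨g, hg⟩
    rw [hh', h0, mul_zero, zero_smul, zero_add] at this
    exact this

end Fermat.Agent.TW
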