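import Mathlib.Algebra.Module.ZMod
import Mathlib.LinearAlgebra.Dual.Lemmas
import Mathlib.LinearAlgebra.FiniteDimensional.Lemmas
import Fermat.Agent.TW.GW.Pairing
import Fermat.Agent.TW.GW.Places

/-!
# The Greenberg–Wiles inequality and the Taylor–Wiles step

`C r` is a local condition on global cocycles at the primes `r ∈ T`; `dualSel` is the orthogonal
space of classes of the dual module unramified outside `T`.
The orthogonal space bounds the classes satisfying the conditions from above, and auxiliary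
primes detecting it kill the excess.
-/

noncomputable section

namespace Fermat.Agent.TW

open Fermat.Agent.PT Fermat.Agent.PT.Lv Module

theorem finrank_add_le_of_annihilate {F : Type*} [Field F] {V W A : Type*} [AddCommGroup V]
    [Module F V] [AddCommGroup W] [Module F W] [FiniteDimensional F W] [AddCommGroup A] [Module F A]
    [FiniteDimensional F A] (loc : V →ₗ[F] A) (hloc : Function.Injective loc)
    (Φ : W →ₗ[F] Dual F A) (h : ∀ v w, Φ w (loc v) = 0) :
    finrank F V + finrank F W ≤ finrank F A + finrank F (LinearMap.ker Φ) := by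
  have h1 := Subspace.finrank_add_finrank_dualAnnihilator_eq (LinearMap.range loc)
  have h2 : LinearMap.range Φ ≤ (LinearMap.range loc).dualAnnihilator := by
    rintro _ ⟨w, rfl⟩
    rw [Submodule.mem_dualAnnihilator]
    rintro _ ⟨v, rfl⟩
    exact h v w
  have h3 := Submodule.finrank_mono h2
  have h4 := LinearMap.finrank_range_add_finrank_ker Φ
  have h5 := LinearMap.finrank_range_of_inj hloc
  omega

variable {p : ℕ} [Fact p.Prime] {k : Type} [Field k] [Finite k] [Algebra (ZMod p) k]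
  {M M' : Type} [AddCommGroup M] [Module k M] [Module (ZMod p) M] [IsScalarTower (ZMod p) k M]
  [AddCommGroup M'] [Module k M'] [Module (ZMod p) M'] [IsScalarTower (ZMod p) k M']
  (ρ : Representation k AG M) (ρ' : Representation k AG M') {β : M →+ M' →+ ZMod p}
  (hP : IsMuPairing p ρ ρ' β) (hbal : ∀ (a : k) m m', β (a • m) m' = β m (a • m'))
  (lam : ∀ r : Nat.Primes, H2 (LQ (r : ℕ)) (muQ p (r : ℕ)) →ₗ[ZMod p] ZMod p)
  (T : Finset Nat.Primes) (C : Nat.Primes → Submodule k (AG → M))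

/-- Classes unramified outside `S` satisfying the conditions at `T`. -/
def selCond (S : Finset Nat.Primes) : Submodule k (AG → M) :=
  selCocycles ρ (natSet S) ⊓ ⨅ r ∈ T, C r

omit [Finite k] in
theorem mem_selCond {S : Finset Nat.Primes} {x : AG → M} :
    x ∈ selCond ρ T C S ↔ x ∈ selCocycles ρ (natSet S) ∧ ∀ r ∈ T, x ∈ C r := by
  simp [selCond, Submodule.mem_iInf]

/-- Restriction of cochains to a subgroup. -/
abbrev resFn (D : Subgroup AG) : (AG → M) →ₗ[k] (D → M) := LinearMap.funLeft k M Subtype.val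

/-- The classes at the standard place cut out by a local condition. -/
def locSpace (r : Nat.Primes) : Submodule k ((decQ (r : ℕ) → M) ⧸ B1 (resRep ρ (decQ (r : ℕ)))) :=
  classes (resRep ρ (decQ (r : ℕ))) ((Z1 lvQ ρ ⊓ C r).map (resFn (decQ (r : ℕ))))

/-- The projection onto the local classes. -/
def toLocSpace (r : Nat.Primes) : ↥(Z1 lvQ ρ ⊓ C r) →ₗ[k] ↥(locSpace ρ C r) :=
  ((B1 (resRep ρ (decQ (r : ℕ)))).mkQ ∘ₗ resFn (decQ (r : ℕ)) ∘ₗ Submodule.subtype _).codRestrict _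
    fun x => Submodule.mem_map_of_mem (Submodule.mem_map_of_mem x.2)

omit [Finite k] in
theorem toLocSpace_surjective (r : Nat.Primes) : Function.Surjective (toLocSpace ρ C r) := by
  rintro ⟨_, _, ⟨x, hx, rfl⟩, rfl⟩
  exact ⟨⟨x, hx⟩, rfl⟩

omit [Finite k] [Algebra (ZMod p) k] [Module (ZMod p) M] [IsScalarTower (ZMod p) k M]
  [Module (ZMod p) M'] [IsScalarTower (ZMod p) k M'] in
include hbal in
theorem pairQ_balanced (r : Nat.Primes) (a : k) (x : Z1 lvQ ρ) (y : Z1 lvQ ρ') :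
    pairQ hP lam r (resQ ρ r (a • x)) (resQ ρ' r y) =
      pairQ hP lam r (resQ ρ r x) (resQ ρ' r (a • y)) := by
  rw [pairQ_apply, pairQ_apply, locCup, locCup, cupH2, cupH2]
  refine congrArg (lam r) (mk2_congr (funext fun gh => ?_))
  simp only [cupFn, pullQ, Function.comp_apply]
  exact (hbal a _ _).trans (congrArg _ (map_smul _ a _).symm)

/-- Classes of the dual module orthogonal to the local conditions. -/
def dualSel : Submodule k (AG → M') where
  carrier := {y | ∃ hy : y ∈ selCocycles ρ' (natSet T), ∀ r ∈ T, ∀ x : Z1 lvQ ρ,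
    (x : AG → M) ∈ C r → pairQ hP lam r (resQ ρ r x) (resQ ρ' r ⟨y, hy.1⟩) = 0}
  zero_mem' := ⟨zero_mem _, fun r _ x _ => by
    rw [show (⟨0, (zero_mem (selCocycles ρ' (natSet T))).1⟩ : Z1 lvQ ρ') = 0 from rfl, map_zero,
      map_zero]⟩
  add_mem' := fun {a b} ⟨ha, ha'⟩ ⟨hb, hb'⟩ => ⟨add_mem ha hb, fun r hr x hx => by
    rw [show (⟨a + b, (add_mem ha hb).1⟩ : Z1 lvQ ρ') = ⟨a, ha.1⟩ + ⟨b, hb.1⟩ from rfl, map_add,
      map_add, ha' r hr x hx, hb' r hr x hx, add_zero]⟩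
  smul_mem' := fun a y ⟨hy, hy'⟩ => ⟨Submodule.smul_mem _ a hy, fun r hr x hx => by
    rw [show (⟨a • y, (Submodule.smul_mem _ a hy).1⟩ : Z1 lvQ ρ') = a • ⟨y, hy.1⟩ from rfl,
      ← pairQ_balanced ρ ρ' hP hbal lam r a x ⟨y, hy.1⟩]
    exact hy' r hr (a • x) (Submodule.smul_mem _ a hx)⟩

variable {ρ ρ'} {lam}

omit [Finite k] [Algebra (ZMod p) k] [Module (ZMod p) M] [IsScalarTower (ZMod p) k M]
  [Module (ZMod p) M'] [IsScalarTower (ZMod p) k M'] in
theorem dualSel_le : dualSel ρ ρ' hP hbal lam T C ≤ selCocycles ρ' (natSet T) :=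
  fun _ ⟨h, _⟩ => h

variable (ρ) in
/-- Restriction of classes to the decomposition group of a prime. -/
def resQuot (r : Nat.Primes) :
    ((AG → M) ⧸ B1 ρ) →ₗ[k] ((decQ (r : ℕ) → M) ⧸ B1 (resRep ρ (decQ (r : ℕ)))) :=
  Submodule.mapQ _ _ (resFn (decQ (r : ℕ))) fun x ⟨m, hm⟩ => ⟨m, by
    rw [← hm]; rfl⟩

variable (ρ) in
/-- Localisation of the classes with the local conditions at the primes of `T`. -/
def selLoc : ↥(classes ρ (selCond ρ T C T)) →ₗ[k] ((r : T) → ↥(locSpace ρ C r)) :=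
  LinearMap.pi fun r => (resQuot ρ r ∘ₗ Submodule.subtype _).codRestrict _ fun v => by
    obtain ⟨x, hx, hxv⟩ := v.2
    obtain ⟨hx1, hx2⟩ := (mem_selCond ρ T C).1 hx
    show resQuot ρ r (v : (AG → M) ⧸ B1 ρ) ∈ _
    rw [← hxv]
    exact Submodule.mem_map_of_mem (Submodule.mem_map_of_mem ⟨hx1.1, hx2 r r.2⟩)

omit [Finite k] [Algebra (ZMod p) k] [Module (ZMod p) M] [IsScalarTower (ZMod p) k M] in
/-- If the primes of `T` detect the unramified classes, localisation at `T` is injective. -/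
theorem selLoc_injective
    (hdetect : ∀ x ∈ selCocycles ρ ∅, (∀ r ∈ T, x ∈ locB1 ρ (decQ (r : ℕ))) → x ∈ B1 ρ) :
    Function.Injective (selLoc ρ T C) := by
  refine (injective_iff_map_eq_zero (selLoc ρ T C)).2 fun ⟨v, x, hx, hxv⟩ hv => Subtype.ext ?_
  subst hxv
  obtain ⟨hx1, -⟩ := (mem_selCond ρ T C).1 hx
  have hl : ∀ r ∈ T, x ∈ locB1 ρ (decQ (r : ℕ)) := fun r hr => by
    have h : resQuot ρ r ((B1 ρ).mkQ x) = 0 := congrArg Subtype.val (congrFun hv ⟨r, hr⟩)
    obtain ⟨m, hm⟩ := (Submodule.Quotient.mk_eq_zero _).1 h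
    exact ⟨m, fun g hg => (congrFun hm ⟨g, hg⟩).symm⟩
  refine (Submodule.Quotient.mk_eq_zero _).2 (hdetect x ?_ hl)
  have := mem_selCocycles_of_inQ (T' := ∅) hx1 fun r hr _ =>
    locB1_mono (inQ_le_decQ (r : ℕ)) (hl r hr)
  rwa [show natSet (∅ : Finset Nat.Primes) = ∅ from rfl] at this

/-- The Greenberg–Wiles inequality. -/
theorem finrank_sel_le (hpT : pP p ∈ T)
    (hrec : ∀ (S : Finset Nat.Primes) (z : H2 LG (muG p)),
      (∀ q, q ∉ S → locQ p (q : ℕ) z = 0) → ∑ q ∈ S, lam q (locQ p (q : ℕ) z) = 0)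
    (hρ : ∃ U ∈ LS T, ∀ s ∈ U, ρ s = 1) (hρ' : ∃ U ∈ LS T, ∀ s ∈ U, ρ' s = 1)
    (hdetect : ∀ x ∈ selCocycles ρ ∅, (∀ r ∈ T, x ∈ locB1 ρ (decQ (r : ℕ))) → x ∈ B1 ρ)
    (hloc : ∀ r ∈ T, FiniteDimensional k (locSpace ρ C r)) {ℓ : Nat.Primes → ℕ}
    (hℓ : ∀ r ∈ T, finrank k (locSpace ρ C r) ≤ ℓ r)
    (hfin : FiniteDimensional k (classes ρ' (selCocycles ρ' (natSet T)))) {n : ℕ}
    (hn : n ≤ finrank (ZMod p) (classes ρ' (selCocycles ρ' (natSet T)))) :
    FiniteDimensional k (classes ρ (selCond ρ T C T)) ∧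
      finrank (ZMod p) k * finrank k (classes ρ (selCond ρ T C T)) + n ≤
        finrank (ZMod p) k * finrank k (classes ρ' (dualSel ρ ρ' hP hbal lam T C)) +
          finrank (ZMod p) k * ∑ r ∈ T, ℓ r := by
  classical
  have hTfin : ∀ r : T, FiniteDimensional k (locSpace ρ C r) := fun r => hloc r r.2
  have : FiniteDimensional k ((r : T) → ↥(locSpace ρ C r)) :=
    @Module.Finite.pi k _ T (fun r => ↥(locSpace ρ C r)) _ _ _ hTfin
  have : IsNoetherian k ((r : T) → ↥(locSpace ρ C r)) :=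
    (IsNoetherian.iff_fg (K := k) (V := (r : T) → ↥(locSpace ρ C r))).2 inferInstance
  -- localisation
  let loc := selLoc ρ T C
  have hlocinj : Function.Injective loc := selLoc_injective T C hdetect
  have hfinV : FiniteDimensional k (classes ρ (selCond ρ T C T)) :=
    Module.Finite.of_injective loc hlocinj
  refine ⟨hfinV, ?_⟩
  -- the functional of a dual class at a prime
  let π : ↥(selCocycles ρ' (natSet T)) →ₗ[ZMod p] ↥(classes ρ' (selCocycles ρ' (natSet T))) :=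
    (((B1 ρ').mkQ ∘ₗ (selCocycles ρ' (natSet T)).subtype).codRestrict
      (classes ρ' (selCocycles ρ' (natSet T)))
      fun y => Submodule.mem_map_of_mem y.2).restrictScalars (ZMod p)
  have hπ : Function.Surjective π := by
    rintro ⟨_, y, hy, rfl⟩
    exact ⟨⟨y, hy⟩, rfl⟩
  have hker : ∀ (r : Nat.Primes) (y : ↥(selCocycles ρ' (natSet T))),
      LinearMap.ker ((toLocSpace ρ C r).restrictScalars (ZMod p)) ≤
        LinearMap.ker ((AddMonoidHom.mk' (fun x : ↥(Z1 lvQ ρ ⊓ C r) =>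
          pairQ hP lam r (resQ ρ r ⟨x, x.2.1⟩) (resQ ρ' r ⟨y, y.2.1⟩)) fun x x' => by
            rw [← AddMonoidHom.add_apply, ← map_add, ← map_add]; rfl).toZModLinearMap p) := by
    intro r y x hx
    have h : (B1 (resRep ρ (decQ (r : ℕ)))).mkQ (resFn (k := k) (decQ (r : ℕ)) (x : AG → M)) = 0 :=
      congrArg Subtype.val (LinearMap.mem_ker.1 hx)
    rw [LinearMap.mem_ker, AddMonoidHom.coe_toZModLinearMap, AddMonoidHom.mk'_apply]
    rw [pairQ_congr hP lam r (resQ ρ r ⟨x, x.2.1⟩) 0 (resQ ρ' r ⟨y, y.2.1⟩) (resQ ρ' r ⟨y, y.2.1⟩)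
      (by
        rw [Submodule.coe_zero, sub_zero]
        exact (Submodule.Quotient.mk_eq_zero _).1 h)
      (by rw [sub_self]; exact zero_mem _), map_zero, AddMonoidHom.zero_apply]
  let F : ∀ r : Nat.Primes, ↥(selCocycles ρ' (natSet T)) → Dual (ZMod p) ↥(locSpace ρ C r) :=
    fun r y => descend ((toLocSpace ρ C r).restrictScalars (ZMod p)) (toLocSpace_surjective ρ C r)
      _ (hker r y)
  have hF : ∀ (r : Nat.Primes) y (x : ↥(Z1 lvQ ρ ⊓ C r)), F r y (toLocSpace ρ C r x) =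
      pairQ hP lam r (resQ ρ r ⟨x, x.2.1⟩) (resQ ρ' r ⟨y, y.2.1⟩) := fun r y x =>
    descend_apply ((toLocSpace ρ C r).restrictScalars (ZMod p)) (toLocSpace_surjective ρ C r) _
      (hker r y) x
  let Φ₀ : ↥(selCocycles ρ' (natSet T)) →ₗ[ZMod p] Dual (ZMod p) ((r : T) → ↥(locSpace ρ C r)) :=
    (AddMonoidHom.mk' (fun y => ∑ r : T, F r y ∘ₗ LinearMap.proj r) fun y y' => by
      rw [← Finset.sum_add_distrib]
      refine Finset.sum_congr rfl fun r _ => ?_
      rw [← LinearMap.add_comp]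
      congr 1
      refine LinearMap.ext fun v => ?_
      obtain ⟨x, rfl⟩ := toLocSpace_surjective ρ C r v
      rw [LinearMap.add_apply, hF, hF, hF, ← map_add, ← map_add]
      rfl).toZModLinearMap p
  have hΦ₀ : ∀ y v, Φ₀ y v = ∑ r : T, F r y (v r) := fun y v => by
    simp [Φ₀, LinearMap.sum_apply]
  have hker₀ : LinearMap.ker π ≤ LinearMap.ker Φ₀ := by
    intro y hy
    have hyB : (y : AG → M') ∈ B1 ρ' :=
      (Submodule.Quotient.mk_eq_zero _).1 (congrArg Subtype.val (LinearMap.mem_ker.1 hy))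
    obtain ⟨m, hm⟩ := hyB
    refine LinearMap.mem_ker.2 (LinearMap.ext fun v => ?_)
    rw [hΦ₀]
    refine Finset.sum_eq_zero fun r _ => ?_
    obtain ⟨x, hx⟩ := toLocSpace_surjective ρ C r (v r)
    rw [← hx, hF, pairQ_congr hP lam r (resQ ρ r ⟨x, x.2.1⟩) (resQ ρ r ⟨x, x.2.1⟩)
      (resQ ρ' r ⟨y, y.2.1⟩) 0 (by rw [sub_self]; exact zero_mem _)
      ⟨m, funext fun σ => by simp [d0_apply, coe_resQ, ← congrFun hm (σ : AG)]⟩, map_zero]
  let Φ := descend π hπ Φ₀ hker₀
  have : Module.Finite (ZMod p) k := Module.Finite.of_finite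
  have : FiniteDimensional (ZMod p) ↥(classes ρ' (selCocycles ρ' (natSet T))) :=
    Module.Finite.trans k _
  have : FiniteDimensional (ZMod p) ((r : T) → ↥(locSpace ρ C r)) := Module.Finite.trans k _
  let locp : ↥(classes ρ (selCond ρ T C T)) →ₗ[ZMod p] ((r : T) → ↥(locSpace ρ C r)) :=
    loc.restrictScalars (ZMod p)
  have hlocp : Function.Injective locp := hlocinj
  have hann : ∀ v w, Φ w (locp v) = 0 := fun v w => by
    obtain ⟨y, rfl⟩ := hπ w
    rw [descend_apply, hΦ₀]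
    obtain ⟨x, hx, hxv⟩ := v.2
    obtain ⟨hx1, hx2⟩ := (mem_selCond ρ T C).1 hx
    rw [← sum_pairQ_eq_zero hP lam hpT hrec hρ hρ' (x := ⟨x, hx1.1⟩) hx1 (y := ⟨y, y.2.1⟩) y.2,
      ← Finset.sum_coe_sort T]
    refine Finset.sum_congr rfl fun r _ => ?_
    rw [← hF r y ⟨x, hx1.1, hx2 r r.2⟩]
    refine congrArg _ (Subtype.ext ?_)
    show resQuot ρ r (v : (AG → M) ⧸ B1 ρ) = _
    rw [← hxv]
    rfl
  have h := finrank_add_le_of_annihilate (F := ZMod p) (V := ↥(classes ρ (selCond ρ T C T)))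
    (W := ↥(classes ρ' (selCocycles ρ' (natSet T)))) (A := (r : T) → ↥(locSpace ρ C r))
    locp hlocp Φ hann
  -- the kernel consists of orthogonal classes
  have hk : finrank (ZMod p) (LinearMap.ker Φ) ≤
      finrank (ZMod p) ↥(classes ρ' (dualSel ρ ρ' hP hbal lam T C)) := by
    have : Module.Finite k ↥(classes ρ' (dualSel ρ ρ' hP hbal lam T C)) :=
      Submodule.finiteDimensional_of_le (S₂ := classes ρ' (selCocycles ρ' (natSet T)))
        (Submodule.map_mono (dualSel_le hP hbal T C))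
    have : FiniteDimensional (ZMod p) ↥(classes ρ' (dualSel ρ ρ' hP hbal lam T C)) :=
      Module.Finite.trans k _
    refine LinearMap.finrank_le_finrank_of_injective (f :=
      (((classes ρ' (selCocycles ρ' (natSet T))).subtype.restrictScalars (ZMod p)).domRestrict
        (LinearMap.ker Φ)).codRestrict
          ((classes ρ' (dualSel ρ ρ' hP hbal lam T C)).restrictScalars (ZMod p)) fun w => ?_) ?_
    · obtain ⟨y, hy⟩ := hπ w.1
      have h0 := w.2
      rw [LinearMap.mem_ker, ← hy, descend_apply] at h0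
      show ((w.1 : ↥(classes ρ' (selCocycles ρ' (natSet T)))) : (AG → M') ⧸ B1 ρ') ∈ _
      rw [← hy]
      refine Submodule.mem_map_of_mem ⟨y.2, fun r hr x hx => ?_⟩
      have h1 := LinearMap.congr_fun h0 (Pi.single ⟨r, hr⟩ (toLocSpace ρ C r ⟨x, x.2, hx⟩))
      rw [hΦ₀, LinearMap.zero_apply, Finset.sum_eq_single (⟨r, hr⟩ : T), Pi.single_eq_same,
          hF] at h1
      · exact h1
      · intro s _ hs
        rw [Pi.single_eq_of_ne hs, map_zero]
      · exact fun h => absurd (Finset.mem_univ _) h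
    · intro a b hab
      have h2 := congrArg Subtype.val hab
      exact Subtype.ext (Subtype.ext h2)
  have hfree : ∀ r : T, Module.Free k (locSpace ρ C r) := fun r => Module.Free.of_divisionRing k _
  have : Module.Free k ((r : T) → ↥(locSpace ρ C r)) :=
    Module.Free.of_divisionRing k ((r : T) → ↥(locSpace ρ C r))
  have : Module.Free k ↥(classes ρ (selCond ρ T C T)) :=
    Module.Free.of_divisionRing k ↥(classes ρ (selCond ρ T C T))
  have hV := finrank_mul_finrank (ZMod p) k ↥(classes ρ (selCond ρ T C T))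
  have hA := finrank_mul_finrank (ZMod p) k ((r : T) → ↥(locSpace ρ C r))
  have hY := finrank_mul_finrank (ZMod p) k ↥(classes ρ' (dualSel ρ ρ' hP hbal lam T C))
  have hsum : finrank k ((r : T) → ↥(locSpace ρ C r)) ≤ ∑ r ∈ T, ℓ r := by
    rw [Module.finrank_pi_fintype, ← Finset.sum_coe_sort T]
    exact Finset.sum_le_sum fun r _ => hℓ r r.2
  have := Nat.mul_le_mul_left (finrank (ZMod p) k) hsum
  omega

omit [Finite k] [Algebra (ZMod p) k] [Module (ZMod p) M] [IsScalarTower (ZMod p) k M]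
  [Module (ZMod p) M'] [IsScalarTower (ZMod p) k M'] in
/-- At auxiliary primes detecting the orthogonal classes, in number equal to their dimension, no
class satisfying the conditions at `T` ramifies. -/
theorem selCond_union_eq (hpT : pP p ∈ T)
    (hrec : ∀ (S : Finset Nat.Primes) (z : H2 LG (muG p)),
      (∀ q, q ∉ S → locQ p (q : ℕ) z = 0) → ∑ q ∈ S, lam q (locQ p (q : ℕ) z) = 0)
    (hρ : ∃ U ∈ LS T, ∀ s ∈ U, ρ s = 1) (hρ' : ∃ U ∈ LS T, ∀ s ∈ U, ρ' s = 1)
    {ι : Type} [Fintype ι] (Qv : ι → Nat.Primes) (hQ : Function.Injective Qv)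
    (hQT : ∀ i, Qv i ∉ T) (hfin : FiniteDimensional k (classes ρ' (dualSel ρ ρ' hP hbal lam T C)))
    (hcard : finrank k (classes ρ' (dualSel ρ ρ' hP hbal lam T C)) = Fintype.card ι)
    (hdet : ∀ y ∈ dualSel ρ ρ' hP hbal lam T C,
      (∀ i, y ∈ locB1 ρ' (decQ (Qv i : ℕ))) → y ∈ B1 ρ')
    (τ : k →+ ZMod p) (hτ : ∀ b : k, (∀ a, τ (b * a) = 0) → b = 0)
    (hgood : ∀ i, ∃ (c₀ : ZMod p) (ψ : Z1 lvQ ρ → k) (χ : (AG → M') →ₗ[k] k), c₀ ≠ 0 ∧
      (∀ m, χ (d0 ρ' m) = 0) ∧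
      (∀ x, ψ x = 0 → (x : AG → M) ∈ locB1 ρ (inQ (Qv i : ℕ))) ∧
      ∀ y : Z1 lvQ ρ', (y : AG → M') ∈ locB1 ρ' (inQ (Qv i : ℕ)) →
        (∀ x, pairQ hP lam (Qv i) (resQ ρ (Qv i) x) (resQ ρ' (Qv i) y) =
          c₀ * τ (ψ x * χ (y : AG → M'))) ∧
        (χ (y : AG → M') = 0 → (y : AG → M') ∈ locB1 ρ' (decQ (Qv i : ℕ)))) :
    selCond ρ T C (T ∪ Finset.univ.image Qv) = selCond ρ T C T := by
  classical
  choose c₀ ψ χ hc₀ hχB hψ hgood using hgood
  have hunr : ∀ i, ∀ y ∈ selCocycles ρ' (natSet T), y ∈ locB1 ρ' (inQ (Qv i : ℕ)) := fun i y hy =>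
    (mem_unrOutside ρ').1 hy.2 _ (Qv i).2 (fun h => hQT i (mem_natSet.1 h)) _
      padicPlace_liesOverPrime
  refine le_antisymm (fun x hx => ?_) fun x hx => ?_
  swap
  · obtain ⟨hx1, hx2⟩ := (mem_selCond ρ T C).1 hx
    exact (mem_selCond ρ T C).2 ⟨⟨hx1.1, unrOutside_mono ρ
      (Finset.map_subset_map.2 Finset.subset_union_left) hx1.2⟩, hx2⟩
  obtain ⟨hx1, hx2⟩ := (mem_selCond ρ T C).1 hx
  refine (mem_selCond ρ T C).2 ⟨mem_selCocycles_of_inQ hx1 fun r hr hrT => ?_, hx2⟩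
  obtain ⟨i, -, rfl⟩ := Finset.mem_image.1 ((Finset.mem_union.1 hr).resolve_left hrT)
  refine hψ i ⟨x, hx1.1⟩ (hτ _ fun a => ?_)
  -- a dual class with prescribed values at the auxiliary primes
  let e : ↥(classes ρ' (dualSel ρ ρ' hP hbal lam T C)) →ₗ[k] (ι → k) := LinearMap.pi fun j =>
    (B1 ρ').liftQ (χ j) (fun _ ⟨m, hm⟩ => by rw [LinearMap.mem_ker, ← hm, hχB]) ∘ₗ
      Submodule.subtype _
  have he : Function.Injective e := by
    refine (injective_iff_map_eq_zero e).2 fun ⟨v, y, hy, hyv⟩ h => Subtype.ext ?_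
    subst hyv
    exact (Submodule.Quotient.mk_eq_zero _).2 (hdet y hy fun j =>
      (hgood j ⟨y, (dualSel_le hP hbal T C hy).1⟩
        (hunr j y (dualSel_le hP hbal T C hy))).2 (congrFun h j))
  have hsurj : Function.Surjective e :=
    (LinearMap.injective_iff_surjective_of_finrank_eq_finrank
      (by rw [hcard, Module.finrank_pi])).1 he
  obtain ⟨⟨v, y, hy, hyv⟩, hev⟩ := hsurj (Pi.single i a)
  subst hyv
  have hval : ∀ j, χ j y = (Pi.single i a : ι → k) j := fun j => congrFun hev j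
  have hrecs := sum_pairQ_eq_zero hP lam (T := T ∪ Finset.univ.image Qv)
    (Finset.mem_union_left _ hpT) hrec
    (hρ.imp fun U hU => ⟨LS_mono Finset.subset_union_left hU.1, hU.2⟩)
    (hρ'.imp fun U hU => ⟨LS_mono Finset.subset_union_left hU.1, hU.2⟩)
    (x := ⟨x, hx1.1⟩) hx1 (y := ⟨y, (dualSel_le hP hbal T C hy).1⟩)
    ⟨(dualSel_le hP hbal T C hy).1, unrOutside_mono ρ'
      (Finset.map_subset_map.2 Finset.subset_union_left) (dualSel_le hP hbal T C hy).2⟩
  rw [Finset.sum_union (Finset.disjoint_left.2 fun r hrT hr' => by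
    obtain ⟨j, -, rfl⟩ := Finset.mem_image.1 hr'
    exact hQT j hrT), Finset.sum_eq_zero (fun r hr => hy.2 r hr ⟨x, hx1.1⟩ (hx2 r hr)), zero_add,
    Finset.sum_image (fun a _ b _ h => hQ h), Finset.sum_eq_single i] at hrecs
  · rw [(hgood i _ (hunr i y (dualSel_le hP hbal T C hy))).1, hval, Pi.single_eq_same] at hrecs
    exact (mul_eq_zero.1 hrecs).resolve_left (hc₀ i)
  · intro j _ hj
    rw [(hgood j _ (hunr j y (dualSel_le hP hbal T C hy))).1, hval, Pi.single_eq_of_ne hj, mul_zero,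
      map_zero, mul_zero]
  · exact fun h => absurd (Finset.mem_univ _) h

end Fermat.Agent.TW
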