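import Mathlib.FieldTheory.Finite.Trace
import Mathlib.RingTheory.Trace.Basic
import Fermat.Agent.TW.AdSha
import Fermat.Agent.TW.GW.GoodPairing
import Fermat.Agent.TW.GW.Main

/-!
# The pairing of the adjoint with its twist, detection, and the auxiliary primes

The trace form pairs the adjoint with its twist into `μ_p`, finitely many classes are detected at
finitely many primes, and good primes satisfy the hypothesis of the auxiliary prime step of the
Greenberg–Wiles inequality.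
-/

noncomputable section

namespace Fermat.Agent.TW

open Fermat.Agent.PT Fermat.Agent.PT.Lv Matrix Module

variable {p : ℕ} [Fact p.Prime] {k : Type} [Field k] [Finite k] [Algebra (ZMod p) k] [CharP k p]
  {rb : AG →* M2 k}

variable (p k) in
/-- The trace to the prime field. -/
def trK : k →+ ZMod p := (Algebra.trace (ZMod p) k).toAddMonoidHom

omit [CharP k p] in
theorem trK_nondegenerate (b : k) (h : ∀ a, trK p k (b * a) = 0) : b = 0 := by
  have : Module.Finite (ZMod p) k := Module.Finite.of_finite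
  exact (traceForm_nondegenerate (ZMod p) k).1 b fun a => by
    rw [Algebra.traceForm_apply]; exact h a

variable (p k) in
/-- The trace pairing on trace zero matrices. -/
def adPairing : sl2 k →+ sl2 k →+ ZMod p :=
  AddMonoidHom.mk' (fun X => AddMonoidHom.mk' (fun Y => trK p k (trace ((X : M2 k) * (Y : M2 k))))
    fun Y Y' => by simp [mul_add])
    fun X X' => AddMonoidHom.ext fun Y => by simp [add_mul]

omit [Finite k] [CharP k p] in
theorem adPairing_apply (X Y : sl2 k) :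
    adPairing p k X Y = trK p k (trace ((X : M2 k) * (Y : M2 k))) := rfl

omit [Finite k] [CharP k p] in
theorem adPairing_smul (a : k) (X Y : sl2 k) :
    adPairing p k (a • X) Y = adPairing p k X (a • Y) := by
  simp [adPairing_apply]

omit [Finite k] [CharP k p] in
theorem det_eq_omega (hdet : DetCyc p rb) (g : AG) :
    det (rb g) = algebraMap (ZMod p) k ((cyc p).ω g : ZMod p) := by
  rw [hdet g ((cyc p).ω g : ZMod p).val fun μ hμ => ?_, ← map_natCast (algebraMap (ZMod p) k),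
    ZMod.natCast_zmod_val]
  have hu : IsUnit μ := IsUnit.of_mul_eq_one (μ ^ (p - 1)) (by
    rw [← pow_succ', Nat.sub_add_cancel (Fact.out : p.Prime).one_le, hμ])
  have hpow : hu.unit ^ p = 1 :=
      Units.ext (by rw [Units.val_pow_eq_pow_val, IsUnit.unit_spec, hμ, Units.val_one])
  have h := (cyc p).smul_mu g ((cyc p).lg hu.unit)
  rw [Cyc.mu_lg _ hpow, Cyc.mu_mul, Cyc.mu_lg _ hpow] at h
  simpa using congrArg Units.val h

omit [Finite k] [CharP k p] in
theorem isMuPairing_ad (hfin : GaloisFactorsThroughFiniteLevel rb) (hdet : DetCyc p rb) :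
    IsMuPairing p (adRep rb) (adTwist rb) (adPairing p k) where
  equivariant g X Y := by
    rw [adPairing_apply, adTwist_apply, Submodule.coe_smul, Matrix.mul_smul, coe_adRep, coe_adRep,
      show rb g * (X : M2 k) * rb g⁻¹ * (rb g * (Y : M2 k) * rb g⁻¹) =
        rb g * ((X : M2 k) * (Y : M2 k)) * rb g⁻¹ by
        simp only [mul_assoc]; rw [← mul_assoc (rb g⁻¹), inv_mul_rb, one_mul],
      trace_smul, trace_mul_cycle, inv_mul_rb, one_mul, det_eq_omega hdet, smul_eq_mul,
      ← Algebra.smul_def,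
      muG, Cyc.rep_apply, adPairing_apply, trK, LinearMap.toAddMonoidHom_coe, map_smul, smul_eq_mul]
  level := by
    obtain ⟨L, hL, h⟩ := hfin
    exact ⟨_, fixingSubgroup_mem_krull L, fun s hs =>
      adTwist_eq_one rb (h s ((IntermediateField.mem_fixingSubgroup_iff _ _).1 hs))⟩

omit [Algebra (ZMod p) k] in
/-- Finitely many classes are detected at finitely many decomposition groups. -/
theorem exists_detect (hp2 : p ≠ 2) (hbig : BigImage rb)
    (hfin : GaloisFactorsThroughFiniteLevel rb)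
    (hW : FiniteDimensional k (classes (adRep rb) (selCocycles (adRep rb) ∅)))
    (T₁ : Finset Nat.Primes) :
    ∃ T : Finset Nat.Primes, T₁ ⊆ T ∧ ∀ T' : Finset Nat.Primes, T ⊆ T' →
      ∀ x ∈ selCocycles (adRep rb) ∅, (∀ r ∈ T', x ∈ locB1 (adRep rb) (decQ (r : ℕ))) →
        x ∈ B1 (adRep rb) := by
  classical
  have h2 : (2 : k) ≠ 0 := fun h => hp2 ((Nat.prime_dvd_prime_iff_eq Fact.out Nat.prime_two).1
    ((CharP.cast_eq_zero_iff k p 2).1 (by exact_mod_cast h)))
  have : Finite (classes (adRep rb) (selCocycles (adRep rb) ∅)) := Module.finite_of_finite k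
  let _ : Fintype (classes (adRep rb) (selCocycles (adRep rb) ∅)) := Fintype.ofFinite _
  have hex : ∀ w : classes (adRep rb) (selCocycles (adRep rb) ∅),
      ∃ r : Nat.Primes, ∀ x ∈ selCocycles (adRep rb) ∅,
        (B1 (adRep rb)).mkQ x = (w : (AG → sl2 k) ⧸ B1 (adRep rb)) →
          x ∈ locB1 (adRep rb) (decQ (r : ℕ)) → x ∈ B1 (adRep rb) := by
    rintro ⟨w, x₀, hx₀, rfl⟩
    by_cases h0 : x₀ ∈ B1 (adRep rb)
    · refine ⟨⟨2, Nat.prime_two⟩, fun x _ hx _ => ?_⟩
      have := (Submodule.Quotient.eq _).1 hx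
      simpa using add_mem this h0
    · obtain ⟨q, hq, -, P, hP, hnt⟩ := exists_frobenius_not_trivial hbig h2 hfin ∅ hx₀.1 h0
      refine ⟨⟨q, hq⟩, fun x hx hxw hloc => absurd ?_ hnt⟩
      have hd : x₀ - x ∈ B1 (adRep rb) := (Submodule.Quotient.eq _).1 hxw.symm
      have : Fact q.Prime := ⟨hq⟩
      have := add_mem (B1_le_locB1 (adRep rb) (P.decompositionSubgroup ℚ) hd)
        (locB1_decomposition_of_decQ (q := q) hx.1 hloc hP)
      simpa using this
  choose r hr using hex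
  refine ⟨T₁ ∪ Finset.univ.image r, Finset.subset_union_left, fun T' hT x hx hloc => ?_⟩
  exact hr ⟨_, Submodule.mem_map_of_mem hx⟩ x hx rfl
    (hloc _ (hT (Finset.mem_union_right _ (Finset.mem_image_of_mem _ (Finset.mem_univ _)))))

variable (lam : ∀ r : Nat.Primes, H2 (LQ (r : ℕ)) (muQ p (r : ℕ)) →ₗ[ZMod p] ZMod p)

/-- A good prime satisfies the local hypothesis of the auxiliary prime step. -/
theorem exists_detecting_of_goodPrime (hp2 : p ≠ 2) (hlam : ∀ r, Function.Bijective (lam r))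
    (hfin : GaloisFactorsThroughFiniteLevel rb) (hdet : DetCyc p rb) {m : ℕ} (hpm : p ∣ m)
    {r : Nat.Primes} (hg : GoodPrime rb m (r : ℕ)) :
    ∃ (c₀ : ZMod p) (ψ : Z1 lvQ (adRep rb) → k) (χ : (AG → sl2 k) →ₗ[k] k), c₀ ≠ 0 ∧
      (∀ X, χ (d0 (adTwist rb) X) = 0) ∧
      (∀ x, ψ x = 0 → (x : AG → sl2 k) ∈ locB1 (adRep rb) (inQ (r : ℕ))) ∧
      ∀ y : Z1 lvQ (adTwist rb), (y : AG → sl2 k) ∈ locB1 (adTwist rb) (inQ (r : ℕ)) →
        (∀ x, pairQ (isMuPairing_ad hfin hdet) lam r (resQ (adRep rb) r x)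
          (resQ (adTwist rb) r y) = c₀ * trK p k (ψ x * χ (y : AG → sl2 k))) ∧
        (χ (y : AG → sl2 k) = 0 → (y : AG → sl2 k) ∈ locB1 (adTwist rb) (decQ (r : ℕ))) := by
  obtain ⟨hq, hmq, hIrb, hfrob⟩ := hg
  obtain ⟨φ, hφ⟩ := Gal.exists_isFrobeniusAt hq (padicPlace_liesOverPrime (q := (r : ℕ)))
  obtain ⟨htr, hdφ⟩ := hfrob _ padicPlace_liesOverPrime φ hφ
  have h2 : (2 : k) ≠ 0 := fun h => hp2 ((Nat.prime_dvd_prime_iff_eq Fact.out Nat.prime_two).1
    ((CharP.cast_eq_zero_iff k p 2).1 (by exact_mod_cast h)))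
  have hp1 : p ∣ (r : ℕ) - 1 := hpm.trans hmq
  have hrp : (r : ℕ) ≠ p := fun h => by
    rw [h] at hp1
    have := Nat.le_of_dvd (Nat.sub_pos_of_lt (Fact.out : p.Prime).one_lt) hp1
    have := (Fact.out : p.Prime).pos
    omega
  have hreg : trace (rb φ) ^ 2 ≠ 4 * det (rb φ) := by rwa [hdφ, mul_one]
  have htw : adTwist rb φ = adRep rb φ := LinearMap.ext fun X => by
    rw [adTwist_apply, hdφ, one_smul]
  set e := hZero rb φ with he_def
  set c := trace ((e : M2 k) * (e : M2 k)) with hc_def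
  have hc : c ≠ 0 := by
    rw [hc_def, he_def, trace_hZero_sq]
    exact mul_ne_zero h2 (sub_ne_zero.2 hreg)
  let ℓ' : sl2 k →ₗ[k] k :=
    (traceLinearMap (Fin 2) k k) ∘ₗ (LinearMap.mulRight k (e : M2 k)) ∘ₗ (sl2 k).subtype
  have hℓ : ∀ v : sl2 k, ℓ' v = trace ((v : M2 k) * (e : M2 k)) := fun v => rfl
  have hcomm : rb φ⁻¹ * (e : M2 k) = (e : M2 k) * rb φ⁻¹ := by
    have hc' : rb φ⁻¹ * rb φ = rb φ * rb φ⁻¹ := by rw [inv_mul_rb, mul_inv_rb]
    rw [he_def, coe_hZero, mul_sub, sub_mul, Matrix.mul_smul, Matrix.mul_smul, Matrix.smul_mul,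
      Matrix.smul_mul, one_mul, mul_one, hc']
  have hℓ0 : ∀ v, ℓ' (adTwist rb φ v - v) = 0 := fun v => by
    rw [hℓ, htw, AddSubgroupClass.coe_sub, sub_mul, trace_sub, coe_adRep, mul_assoc, mul_assoc,
      hcomm, trace_mul_comm, mul_assoc, mul_assoc, inv_mul_rb, mul_one, sub_self]
  obtain ⟨L, hL, hLrb⟩ := hfin
  have hlev : ∃ U ∈ lvQ, ∀ s ∈ U, adRep rb s = 1 := ⟨_, fixingSubgroup_mem_krull L, fun s hs =>
    adRep_eq_one rb (hLrb s ((IntermediateField.mem_fixingSubgroup_iff _ _).1 hs))⟩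
  obtain ⟨c₀, ψ, hc₀, hψ, hy⟩ := exists_good_pairing (isMuPairing_ad ⟨L, hL, hLrb⟩ hdet) lam hp2
    hlam hrp hp1 hφ hlev (fun s hs => adRep_eq_one rb (hIrb _ padicPlace_liesOverPrime s hs))
    (fun s hs => adTwist_eq_one rb (hIrb _ padicPlace_liesOverPrime s hs))
    (e := e) (fun v hv => mem_span_hZero hreg hv) (adRep_hZero rfl)
    (hZero_notMem_range hreg h2) (e' := c⁻¹ • e)
    (fun v hv => by
      rw [htw] at hv
      obtain ⟨a, ha⟩ := Submodule.mem_span_singleton.1 (mem_span_hZero hreg hv)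
      exact Submodule.mem_span_singleton.2 ⟨a * c, by
        rw [smul_smul, mul_assoc, mul_inv_cancel₀ hc, mul_one]; exact ha⟩)
    (by rw [htw, map_smul, adRep_hZero rfl]) ℓ' hℓ0
    (by rw [map_smul, hℓ, ← hc_def, smul_eq_mul, inv_mul_cancel₀ hc])
    (trK p k) (fun a b => by
      rw [adPairing_apply, smul_smul, Submodule.coe_smul, Submodule.coe_smul, Matrix.smul_mul,
        Matrix.mul_smul, smul_smul, trace_smul, smul_eq_mul, ← hc_def]
      congr 1
      field_simp)
  exact ⟨c₀, ψ, ℓ' ∘ₗ LinearMap.proj φ, hc₀, fun X => by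
    rw [LinearMap.comp_apply, LinearMap.proj_apply, d0_apply, hℓ0], hψ, hy⟩

end Fermat.Agent.TW
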