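import Mathlib.LinearAlgebra.Dimension.Constructions
import Mathlib.LinearAlgebra.FiniteDimensional.Lemmas
import Mathlib.RepresentationTheory.Invariants
import Fermat.Agent.PT.GlobalSurj

/-!
# A lower bound for `H²(G_T)` by the local invariants of the twisted dual

There are at least as many classes of degree two of `G_T` as local invariants of the twisted dual,
by surjectivity of the localisation map. Combined with the Euler characteristic formula this
bounds classes of degree one from below.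
-/

noncomputable section

namespace Fermat.Agent.TW

open Fermat.Agent.PT Fermat.Agent.PT.Lv Module

variable {p : ℕ} [Fact p.Prime] {M : Type} [AddCommGroup M] [Module (ZMod p) M] [Finite M]
  (ρ : Representation (ZMod p) Gam M)

/-- Functionals invariant under a local group for the twisted action. -/
abbrev dualInv (r : Nat.Primes) : Submodule (ZMod p) (M →ₗ[ZMod p] ZMod p) :=
  Representation.invariants
    ((dualR (muG p) ρ).comp (localGaloisToGlobal (r : ℕ)) :
      Representation (ZMod p) (GamQ (r : ℕ)) (M →ₗ[ZMod p] ZMod p))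

variable {ρ} in
omit [Finite M] in
theorem dualInv_equiv (r : Nat.Primes) (b : ↥(dualInv ρ r)) :
    Equiv' (localGaloisToGlobal (r : ℕ)) ρ (muQ p (r : ℕ)) (b : M →ₗ[ZMod p] ZMod p) := by
  intro τ m
  have h : dualR (muG p) ρ (localGaloisToGlobal (r : ℕ) τ) (b : M →ₗ[ZMod p] ZMod p) =
      (b : M →ₗ[ZMod p] ZMod p) := b.2 τ
  conv_lhs => rw [← h, dualR_smul_apply]
  rfl

/-- There are at least as many classes of `G_T` as local invariants of the twisted dual. -/
theorem sum_finrank_le_H2 (GI : GlobalInputs p) (hodd : p ≠ 2)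
    (lam : ∀ q : Nat.Primes, H2 (LQ (q : ℕ)) (muQ p (q : ℕ)) →ₗ[ZMod p] ZMod p)
    (hlam : ∀ q, Function.Bijective (lam q))
    (hrec : ∀ (S : Finset Nat.Primes) (z : H2 LG (muG p)),
      (∀ q, q ∉ S → locQ p (q : ℕ) z = 0) → ∑ q ∈ S, lam q (locQ p (q : ℕ) z) = 0)
    {T : Finset Nat.Primes} (hpT : pP p ∈ T) {K : Subgroup Gam} (hK : K ∈ LS T)
    (hρ : ∀ g ∈ K, ρ g = 1) (hfix : ∀ b, (∀ g, dualR (muG p) ρ g b = b) → b = 0)
    (hfin : Finite (H2 (LS T) ρ)) :
    ∑ r ∈ T, finrank (ZMod p) ↥(dualInv ρ r) ≤ finrank (ZMod p) (H2 (LS T) ρ) := by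
  classical
  let A := (r : T) → ↥(dualInv ρ r)
  let F : ∀ r : T, ↥(dualInv ρ r) → (H2 (LS T) ρ →ₗ[ZMod p] ZMod p) := fun r b =>
    lam r ∘ₗ H2map (compat_LS (r : Nat.Primes)) (dualInv_equiv (r : Nat.Primes) b)
  have hF : ∀ (r : T) b (z : ↥(Z2 (LS T) ρ)), F r b (mk2 (LS T) ρ z) = lam r
      (mk2 (LQ ((r : Nat.Primes) : ℕ)) (muQ p ((r : Nat.Primes) : ℕ))
        ⟨pp2 (localGaloisToGlobal ((r : Nat.Primes) : ℕ)) (b : M →ₗ[ZMod p] ZMod p) z,
          pp2_mem_Z2 (compat_LS (r : Nat.Primes)) (dualInv_equiv (r : Nat.Primes) b) z.2⟩) :=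
    fun r b z => rfl
  let Φ : A →ₗ[ZMod p] Dual (ZMod p) (H2 (LS T) ρ) :=
    (AddMonoidHom.mk' (fun a : A => ∑ r : T, F r (a r)) fun a a' => by
      rw [← Finset.sum_add_distrib]
      refine Finset.sum_congr rfl fun r _ => LinearMap.ext fun z => ?_
      obtain ⟨z, rfl⟩ := mk2_surjective z
      rw [LinearMap.add_apply, hF, hF, hF, ← map_add, ← map_add]
      exact congrArg _ (mk2_congr (funext fun gh => rfl))).toZModLinearMap p
  have hinj : Function.Injective Φ := by
    refine (injective_iff_map_eq_zero Φ).2 fun a ha => ?_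
    obtain ⟨U, hD, hUK⟩ := exists_deep (p := p) hpT hK
    have := (LS T).finiteIndex hD.mem
    let _ : Fintype (Gam ⧸ U) := Fintype.ofFinite _
    let pr : ↥(pairsA T ρ) := ⟨(0, fun r => (a r : M →ₗ[ZMod p] ZMod p)),
      ⟨zero_mem _, fun r τ => by
        show (0 : M →ₗ[ZMod p] ZMod p) = _
        exact (sub_eq_zero.2 ((a r).2 τ)).symm⟩⟩
    have hU : ∀ g, ∀ u ∈ U, pr.1.1 (g * u) = pr.1.1 g := fun g u _ => rfl
    obtain ⟨m₀, hm1, hm2⟩ := eq_const_of_rawF_eq_zero GI hodd lam hlam hrec hpT hD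
      (fun u hu => hρ u (hUK hu)) pr hU fun B => by
        obtain ⟨x, rfl⟩ := mk2_surjective B
        rw [rawF_mk2]
        have h1 := LinearMap.congr_fun ha
          (H2push (LS T) (indRep U ρ) ρ (indSum (k := ZMod p) U) (indSum_equivariant U ρ)
            (mk2 (LS T) (indRep U ρ) x))
        rw [H2push_mk2, AddMonoidHom.coe_toZModLinearMap, AddMonoidHom.mk'_apply,
          LinearMap.sum_apply, LinearMap.zero_apply] at h1
        rw [← h1]
        refine Finset.sum_congr rfl fun r _ => ?_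
        rw [hF]
        refine congrArg _ (mk2_congr (funext fun gh => ?_))
        show PsiMap U (pr.1.2 r) (0 : Gam → M →ₗ[ZMod p] ZMod p) _ = _
        rw [PsiMap_zero_right]
        rfl
    have h0 : m₀ = 0 := hfix m₀ fun g => sub_eq_zero.1 (hm2 g).symm
    refine funext fun r => Subtype.ext ?_
    exact (hm1 r).trans h0
  have : FiniteDimensional (ZMod p) (H2 (LS T) ρ) := Module.Finite.of_finite
  have : Module.Finite (ZMod p) M := Module.Finite.of_finite
  have h := LinearMap.finrank_le_finrank_of_injective hinj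
  rw [Module.finrank_pi_fintype, Subspace.dual_finrank_eq] at h
  rwa [← Finset.sum_coe_sort T]

end Fermat.Agent.TW
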