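import Mathlib.LinearAlgebra.FreeModule.Finite.Basic
import Mathlib.LinearAlgebra.Quotient.Basic
import Fermat.Prelude.Def_GaloisRep_ComplexConjugation
import Fermat.Agent.TW.GW.Adjoint
import Fermat.Agent.TW.GW.LowerBound

/-!
# Counting classes of the twisted adjoint

Dimensions over the coefficient field against the prime field, the invariants of the adjoint and
its twist, and the fixed space of complex conjugation: the numerical inputs of the
Greenberg–Wiles inequality for the twisted adjoint.
-/

noncomputable section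

namespace Fermat.Agent.TW

open Fermat.Agent.PT Fermat.Agent.PT.Lv Matrix Module

section Restrict

variable {p : ℕ} {k : Type} [Field k] [Algebra (ZMod p) k] {M : Type} [AddCommGroup M] [Module k M]
  [Module (ZMod p) M] [IsScalarTower (ZMod p) k M] {G : Type*} [Group G]

variable (p) in
/-- A representation over `k` as a representation over the prime field. -/
def primeRep (ρ : Representation k G M) : Representation (ZMod p) G M where
  toFun g := (ρ g).restrictScalars (ZMod p)
  map_one' := by ext; simp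
  map_mul' g h := by ext; simp

theorem primeRep_apply (ρ : Representation k G M) (g : G) (m : M) : primeRep p ρ g m = ρ g m := rfl

theorem primeRep_eq_one (ρ : Representation k G M) {g : G} (h : ρ g = 1) :
    primeRep p ρ g = 1 := by
  ext m; simp [primeRep_apply, h]

theorem mem_Z1_primeRep (L : Lv G) (ρ : Representation k G M) {x : G → M} :
    x ∈ Z1 L (primeRep p ρ) ↔ x ∈ Z1 L ρ := by
  rw [mem_Z1, mem_Z1]; exact Iff.rfl

end Restrict

variable {p : ℕ} [Fact p.Prime] {k : Type} [Field k] {M : Type} [AddCommGroup M] [Module k M]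

theorem Z1_LS_eq_selCocycles (ρ : Representation k AG M) {T : Finset Nat.Primes}
    (hρ : ∃ U ∈ LS T, ∀ s ∈ U, ρ s = 1) :
    Z1 (LS T) ρ = selCocycles ρ (natSet T) := by
  refine le_antisymm (fun x hx => ?_) fun x hx => exists_level_LS hx hρ
  obtain ⟨⟨U, hU, hUx⟩, hxm⟩ := mem_Z1.1 hx
  refine ⟨mem_Z1.2 ⟨⟨U, LS_le_LG hU, hUx⟩, hxm⟩, (mem_unrOutside ρ).2 fun q hq hqT P hP => ?_⟩
  refine ⟨0, fun σ hσ => ?_⟩
  have hσU : σ ∈ U := InN_of_mem_LS hU (r := ⟨q, hq⟩) (fun h => hqT (mem_natSet.2 h)) P hP hσ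
  have h := hUx 1 σ hσU
  rw [one_mul, Z1_apply_one (mem_Z1.2 ⟨⟨U, hU, hUx⟩, hxm⟩)] at h
  rw [h, map_zero, sub_zero]

/-- The dimension over the prime field of the classes of a representation over `k`. -/
theorem exists_classes_primeRep_equiv [Algebra (ZMod p) k] [Module (ZMod p) M]
    [IsScalarTower (ZMod p) k M] (ρ : Representation k AG M) (L : Lv AG) :
    ∃ e : ↥((Z1 L (primeRep p ρ)).map (B1 (primeRep p ρ)).mkQ) ≃+
      ↥(classes ρ (Z1 L ρ)), ∀ (c : ZMod p) v, e (c • v) = c • e v := by
  have hB : ∀ x : AG → M, x ∈ B1 (primeRep p ρ) ↔ x ∈ B1 ρ := fun x => Iff.rfl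
  let f : ((AG → M) ⧸ B1 (primeRep p ρ)) →ₗ[ZMod p] ((AG → M) ⧸ B1 ρ) :=
    (B1 (primeRep p ρ)).liftQ ((B1 ρ).mkQ.restrictScalars (ZMod p)) fun x hx =>
      (Submodule.Quotient.mk_eq_zero _).2 ((hB x).1 hx)
  have hfmem : ∀ v : ↥((Z1 L (primeRep p ρ)).map (B1 (primeRep p ρ)).mkQ),
      f v ∈ classes ρ (Z1 L ρ) := by
    rintro ⟨_, x, hx, rfl⟩
    exact Submodule.mem_map_of_mem ((mem_Z1_primeRep L ρ).1 hx)
  let g : ↥((Z1 L (primeRep p ρ)).map (B1 (primeRep p ρ)).mkQ) →+ ↥(classes ρ (Z1 L ρ)) :=
    AddMonoidHom.mk' (fun v => ⟨f v, hfmem v⟩) fun a b => Subtype.ext (map_add f _ _)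
  refine ⟨AddEquiv.ofBijective g ⟨?_, ?_⟩, fun c v => Subtype.ext (map_smul f c _)⟩
  · rintro ⟨_, x, hx, rfl⟩ ⟨_, y, hy, rfl⟩ h
    have h' : (B1 ρ).mkQ x = (B1 ρ).mkQ y := congrArg Subtype.val h
    exact Subtype.ext ((Submodule.Quotient.eq _).2 ((hB _).2 ((Submodule.Quotient.eq _).1 h')))
  · rintro ⟨_, x, hx, rfl⟩
    exact ⟨⟨_, Submodule.mem_map_of_mem ((mem_Z1_primeRep L ρ).2 hx)⟩, rfl⟩

section Adjoint

variable [Finite k] [Algebra (ZMod p) k] [CharP k p] {rb : AG →* M2 k}

omit [Finite k] in
theorem adTwist_fixed_eq_zero (hbig : BigImage rb) (h2 : (2 : k) ≠ 0) {X : sl2 k}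
    (hX : ∀ g, adTwist rb g X = X) : X = 0 := by
  refine Subtype.ext (hbig.eq_zero_of_adStable h2
    (by rw [trace_fin_two]; exact mem_sl2.1 X.2) fun g => ⟨(det (rb g))⁻¹, ?_⟩)
  have hd : det (rb g) ≠ 0 := fun h => by
    have h1 := congrArg det (mul_inv_rb (rb := rb) g)
    rw [det_mul, h, zero_mul, det_one] at h1
    exact zero_ne_one h1
  have h1 := congrArg (fun Y : sl2 k => (Y : M2 k) * rb g) (hX g)
  simp only [adTwist_apply, Submodule.coe_smul, coe_adRep, Matrix.smul_mul] at h1
  rw [mul_assoc, inv_mul_rb, mul_one] at h1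
  rw [← h1, smul_smul, inv_mul_cancel₀ hd, one_smul]

omit [Finite k] in
theorem adRep_fixed_eq_zero (hbig : BigImage rb) (h2 : (2 : k) ≠ 0) {X : sl2 k}
    (hX : ∀ g, adRep rb g X = X) : X = 0 := by
  refine Subtype.ext (hbig.eq_zero_of_adStable h2
    (by rw [trace_fin_two]; exact mem_sl2.1 X.2) fun g => ⟨1, ?_⟩)
  have h1 := congrArg (fun Y : sl2 k => (Y : M2 k) * rb g) (hX g)
  simp only [coe_adRep] at h1
  rw [mul_assoc, inv_mul_rb, mul_one] at h1
  rw [h1, one_smul]

omit [Finite k] [Algebra (ZMod p) k] in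
theorem det_complexConjugation (hdet : DetCyc p rb) : det (rb complexConjugation) = -1 := by
  have hp := (Fact.out : p.Prime).one_lt
  rw [hdet complexConjugation (p - 1) fun μ hμ => ?_, Nat.cast_sub hp.le, CharP.cast_eq_zero,
    Nat.cast_one, zero_sub]
  apply complexEmbedding.injective
  show complexEmbedding (complexConjugation μ) = complexEmbedding (μ ^ (p - 1))
  have hn := Complex.norm_eq_one_of_pow_eq_one (n := p) (ζ := complexEmbedding μ)
    (by rw [← map_pow, hμ, map_one]) (Fact.out : p.Prime).ne_zero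
  rw [complexEmbedding_complexConjugation, ← Complex.inv_eq_conj hn]
  refine inv_eq_of_mul_eq_one_right ?_
  rw [← map_mul, ← pow_succ', Nat.sub_add_cancel hp.le, hμ, map_one]

omit [Finite k] [Algebra (ZMod p) k] in
/-- Complex conjugation fixes a plane in the twisted adjoint. -/
theorem finrank_adTwist_fix_complexConjugation (hdet : DetCyc p rb) (hp2 : p ≠ 2) :
    finrank k (LinearMap.ker (adTwist rb complexConjugation - 1)) = 2 := by
  set c := complexConjugation
  have h2 : (2 : k) ≠ 0 := fun h => hp2 ((Nat.prime_dvd_prime_iff_eq Fact.out Nat.prime_two).1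
    ((CharP.cast_eq_zero_iff k p 2).1 (by exact_mod_cast h)))
  have hd : det (rb c) = -1 := det_complexConjugation hdet
  have hcc : rb c * rb c = 1 := by rw [← map_mul, complexConjugation_mul_self, map_one]
  have htr : trace (rb c) = 0 := by
    have e := congrFun (congrFun hcc 0) 0
    have e' := congrFun (congrFun hcc 1) 1
    rw [det_fin_two] at hd
    simp only [Matrix.mul_apply, Fin.sum_univ_two, Matrix.one_apply_eq] at e e'
    rw [trace_fin_two]
    have h : (rb c 0 0 + rb c 1 1) * (rb c 0 0 + rb c 1 1) = 0 := by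
      linear_combination e + e' + 2 * hd
    exact (mul_self_eq_zero).1 h
  have hreg : trace (rb c) ^ 2 ≠ 4 * det (rb c) := by
    rw [htr, hd]
    intro h
    exact mul_ne_zero h2 h2 (by linear_combination h)
  set T := adRep rb c with hT
  have hTT : T * T = 1 := by rw [hT, ← map_mul, complexConjugation_mul_self, map_one]
  have hker : LinearMap.ker (T - 1) = k ∙ hZero rb c := by
    refine le_antisymm (fun v hv => mem_span_hZero hreg (sub_eq_zero.1 (LinearMap.mem_ker.1 hv))) ?_
    rw [Submodule.span_singleton_le_iff_mem, LinearMap.mem_ker, LinearMap.sub_apply,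
      Module.End.one_apply, hT, adRep_hZero rfl, sub_self]
  have hne : hZero rb c ≠ 0 := fun h =>
    hZero_notMem_range hreg h2 (h ▸ zero_mem _)
  have hrange : LinearMap.range (T - 1) = LinearMap.ker (T + 1) := by
    refine le_antisymm ?_ fun v hv => ⟨(-(2 : k)⁻¹) • v, ?_⟩
    · rintro _ ⟨v, rfl⟩
      have := LinearMap.congr_fun hTT v
      simp only [Module.End.mul_apply, Module.End.one_apply] at this
      rw [LinearMap.mem_ker]
      simp only [LinearMap.add_apply, LinearMap.sub_apply, Module.End.one_apply, map_sub, this]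
      abel
    · have hv' : T v = -v := eq_neg_of_add_eq_zero_left (by
        simpa [LinearMap.mem_ker] using hv)
      rw [LinearMap.sub_apply, map_smul, Module.End.one_apply, hv']
      match_scalars
      field_simp
      ring
  have htw : adTwist rb c - 1 = -(T + 1) := by
    refine LinearMap.ext fun X => ?_
    simp only [LinearMap.sub_apply, adTwist_apply, hd, LinearMap.neg_apply, LinearMap.add_apply,
      Module.End.one_apply, hT]
    module
  have hk : LinearMap.ker (adTwist rb c - 1) = LinearMap.ker (T + 1) := by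
    ext v
    rw [LinearMap.mem_ker, LinearMap.mem_ker, htw, LinearMap.neg_apply, neg_eq_zero]
  rw [hk, ← hrange]
  have h := LinearMap.finrank_range_add_finrank_ker (T - 1)
  rw [hker, finrank_span_singleton hne, finrank_sl2] at h
  omega

omit [CharP k p] in
theorem eq_zero_of_adPairing (h2 : (2 : k) ≠ 0) {X : sl2 k}
    (h : ∀ Y, adPairing p k X Y = 0) : X = 0 := by
  have hY : ∀ Y : sl2 k, trace ((X : M2 k) * (Y : M2 k)) = 0 := fun Y =>
    trK_nondegenerate (p := p) _ fun a => by
      have := h (a • Y)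
      rwa [adPairing_apply, Submodule.coe_smul, Matrix.mul_smul, trace_smul, smul_eq_mul,
        mul_comm] at this
  refine Subtype.ext (eq_zero_of_forall_trace_mul fun Z => ?_)
  have h0 : (X : M2 k) 0 0 + (X : M2 k) 1 1 = 0 := mem_sl2.1 X.2
  have h1 := hY ⟨(2 : k) • Z - trace Z • 1, mem_sl2.2 (by simp [trace_fin_two]; ring)⟩
  rw [mul_sub, Matrix.mul_smul, Matrix.mul_smul, mul_one, trace_sub, trace_smul, trace_smul,
    smul_eq_mul, smul_eq_mul, trace_fin_two (X : M2 k), h0, mul_zero, sub_zero] at h1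
  exact (mul_eq_zero.1 h1).resolve_left h2

omit [CharP k p] in
/-- The invariants of the adjoint give invariant functionals on the twisted adjoint. -/
theorem finrank_invariants_le_dualInv (hfin : GaloisFactorsThroughFiniteLevel rb)
    (hdet : DetCyc p rb) (h2 : (2 : k) ≠ 0) (r : Nat.Primes) :
    finrank (ZMod p) k * finrank k (Representation.invariants (resRep (adRep rb) (decQ (r : ℕ)))) ≤
      finrank (ZMod p) ↥(dualInv (primeRep p (adTwist rb)) r) := by
  have : Module.Finite (ZMod p) k := Module.Finite.of_finite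
  have : Module.Finite (ZMod p) (sl2 k) := Module.Finite.trans k _
  rw [finrank_mul_finrank]
  have hmem : ∀ X : Representation.invariants (resRep (adRep rb) (decQ (r : ℕ))),
      (adPairing p k (X : sl2 k)).toZModLinearMap p ∈ dualInv (primeRep p (adTwist rb)) r := by
    intro X τ
    refine LinearMap.ext fun Y => ?_
    have hX : adRep rb (localGaloisToGlobal (r : ℕ) τ) (X : sl2 k) = X := X.2 (toDec (r : ℕ) τ)
    show muG p _ (adPairing p k (X : sl2 k) (adTwist rb (localGaloisToGlobal (r : ℕ) τ)⁻¹ Y)) =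
      adPairing p k (X : sl2 k) Y
    rw [← (isMuPairing_ad hfin hdet).equivariant, hX, ← Module.End.mul_apply, ← map_mul,
      mul_inv_cancel, map_one, Module.End.one_apply]
  refine LinearMap.finrank_le_finrank_of_injective (f := (AddMonoidHom.mk'
    (fun X : Representation.invariants (resRep (adRep rb) (decQ (r : ℕ))) =>
      (⟨_, hmem X⟩ : ↥(dualInv (primeRep p (adTwist rb)) r)))
    fun X Y => Subtype.ext (LinearMap.ext fun Z => by
      simp [map_add])).toZModLinearMap p) ?_
  refine (injective_iff_map_eq_zero _).2 fun X hX => Subtype.ext ?_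
  exact eq_zero_of_adPairing h2 fun Y => LinearMap.congr_fun (congrArg Subtype.val hX) Y

end Adjoint

end Fermat.Agent.TW
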