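import Mathlib.GroupTheory.QuotientGroup.Basic
import Fermat.Agent.PT.Setup
import Fermat.Agent.TW.GW.Count
import Fermat.Agent.TW.Local.Unram

/-!
# Auxiliary primes bounding the classes with given local conditions

Given the Euler characteristic formula, there are auxiliary primes, in number independent of the
congruence required, such that classes of the adjoint unramified outside them and `p` with a small
condition at `p` span at most as many dimensions. This is the Taylor–Wiles selection in
cohomological form.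
-/

noncomputable section

namespace Fermat.Agent.TW

open Fermat.Agent.PT Fermat.Agent.PT.Lv Matrix Module

variable {p : ℕ} [Fact p.Prime]

variable (p) in
/-- The global Euler characteristic formula for `G_T` with coefficients killed by `p`. -/
def EulerFormula : Prop :=
  ∀ (T : Finset Nat.Primes), pP p ∈ T → ∀ (K : Subgroup Gam), K.Normal → K ∈ LS T →
    (cyc p).MuFix K → (∀ H : Subgroup Gam, K ≤ H → SFull H (placesOver H T)) →
    ∀ {M : Type} [AddCommGroup M] [Module (ZMod p) M] [Finite M]
      (π : Representation (ZMod p) Gam M), (∀ g ∈ K, π g = 1) →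
      Finite ((Z1 (LS T) π).map (B1 π).mkQ) ∧ Finite (H2 (LS T) π) ∧
        (finrank (ZMod p) π.invariants : ℤ) - finrank (ZMod p) ((Z1 (LS T) π).map (B1 π).mkQ) +
            finrank (ZMod p) (H2 (LS T) π) +
          ((finrank (ZMod p) M : ℤ) -
            finrank (ZMod p) (LinearMap.ker (π complexConjugation - 1))) = 0

variable {k : Type} [Field k] [Finite k] [Algebra (ZMod p) k] [CharP k p] {rb : AG →* M2 k}

omit [Finite k] [CharP k p] in
theorem smooth_adRep_of_finiteLevel (hfin : GaloisFactorsThroughFiniteLevel rb) :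
    Smooth lvQ (adRep rb) :=
  fun X => by
    obtain ⟨L, hL, h⟩ := hfin
    exact ⟨_, fixingSubgroup_mem_krull L, fun s hs => by
      rw [adRep_eq_one rb (h s ((IntermediateField.mem_fixingSubgroup_iff _ _).1 hs))]; rfl⟩

omit [Finite k] [CharP k p] in
/-- A level, and a finite set of primes beyond which the arithmetic hypotheses hold. -/
theorem exists_adequate (GI : GlobalInputs p) (hfin : GaloisFactorsThroughFiniteLevel rb)
    (hdet : DetCyc p rb) :
    ∃ (K : Subgroup Gam) (T₀ : Finset Nat.Primes), K.Normal ∧ (∀ g ∈ K, rb g = 1) ∧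
      (cyc p).MuFix K ∧ ∀ T, T₀ ⊆ T → pP p ∈ T ∧ K ∈ LS T ∧
        ∀ H : Subgroup Gam, K ≤ H → SFull H (placesOver H T) := by
  classical
  obtain ⟨L, hL, hLrb⟩ := hfin
  let K : Subgroup Gam := (MonoidHom.toHomUnits rb).ker
  have hK : ∀ g ∈ K, rb g = 1 := fun g hg => congrArg Units.val (MonoidHom.mem_ker.1 hg)
  have hKn : K.Normal := MonoidHom.normal_ker _
  have hLK : ∀ σ : AG, (∀ x ∈ L, σ x = x) → σ ∈ K := fun σ hσ =>
    MonoidHom.mem_ker.2 (Units.ext (hLrb σ hσ))
  have hKLG : K ∈ LG := LG.mem_of_le (fixingSubgroup_mem_krull L) fun σ hσ =>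
    hLK σ ((IntermediateField.mem_fixingSubgroup_iff _ _).1 hσ)
  obtain ⟨Sr, hSr⟩ := Gal.exists_finset_inertia_fixes L
  have := LG.finiteIndex hKLG
  have : Finite {H : Subgroup Gam // K ≤ H} :=
    Finite.of_equiv _ (QuotientGroup.comapMk'OrderIso K).toEquiv
  let _ : Fintype {H : Subgroup Gam // K ≤ H} := Fintype.ofFinite _
  choose SH hSH using fun H : {H : Subgroup Gam // K ≤ H} =>
    GI.exists_sFull (LG.mem_of_le hKLG H.2) ∅
  refine ⟨K, insert (pP p) (Sr.subtype Nat.Prime ∪ Finset.univ.biUnion SH), hKn, hK,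
    fun g hg => Units.ext ((algebraMap (ZMod p) k).injective ?_), fun T hT => ?_⟩
  · rw [← det_eq_omega hdet g, hK g hg, det_one, Units.val_one, map_one]
  obtain ⟨hpT, hT'⟩ := Finset.insert_subset_iff.1 hT
  refine ⟨hpT, mem_LS_of_inertia hKLG fun r hr A hA σ hσ =>
      hLK σ (hSr (r : ℕ) r.2 (fun h => ?_) A hA σ hσ),
    fun H hH v hv => ?_⟩
  · exact hr (hT' (Finset.mem_union_left _ (Finset.mem_subtype.2 h)))
  · have hsub : placesOver H (SH ⟨H, hH⟩) ⊆ placesOver H T := fun w hw =>
      hT' (Finset.mem_union_right _ (Finset.mem_biUnion.2 ⟨⟨H, hH⟩, Finset.mem_univ _, hw⟩))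
    obtain ⟨c, hc, hcv, hc'⟩ := (hSH ⟨H, hH⟩).2.2 v fun h => hv (hsub h)
    exact ⟨c, hc, hcv, fun v' hv' => hc' v' fun h => hv' (hsub h)⟩

omit [Finite k] [CharP k p] in
/-- Classes over `k` and over the prime field have the same dimension over the prime field. -/
theorem finrank_classes_primeRep {M : Type} [AddCommGroup M] [Module k M] [Module (ZMod p) M]
    [IsScalarTower (ZMod p) k M] (ρ : Representation k AG M) {T : Finset Nat.Primes}
    (hρ : ∃ U ∈ LS T, ∀ s ∈ U, ρ s = 1) :
    finrank (ZMod p) ((Z1 (LS T) (primeRep p ρ)).map (B1 (primeRep p ρ)).mkQ) =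
      finrank (ZMod p) (classes ρ (selCocycles ρ (natSet T))) ∧
      (Finite ((Z1 (LS T) (primeRep p ρ)).map (B1 (primeRep p ρ)).mkQ) →
        Finite (classes ρ (selCocycles ρ (natSet T)))) := by
  obtain ⟨e, he⟩ := exists_classes_primeRep_equiv (p := p) ρ (LS T)
  rw [← Z1_LS_eq_selCocycles ρ hρ]
  exact ⟨(LinearEquiv.finrank_eq { e with map_smul' := he }), fun h => Finite.of_equiv _ e.toEquiv⟩

omit [CharP k p] in
/-- An invariant functional on the twisted adjoint vanishes. -/
theorem dual_adTwist_eq_zero (hfin : GaloisFactorsThroughFiniteLevel rb) (hdet : DetCyc p rb)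
    (hbig : BigImage rb) (h2 : (2 : k) ≠ 0) (b : sl2 k →ₗ[ZMod p] ZMod p)
    (hb : ∀ g, dualR (muG p) (primeRep p (adTwist rb)) g b = b) : b = 0 := by
  have : Module.Finite (ZMod p) k := Module.Finite.of_finite
  have : Module.Finite (ZMod p) (sl2 k) := Module.Finite.trans k _
  let β : sl2 k →ₗ[ZMod p] (sl2 k →ₗ[ZMod p] ZMod p) :=
    (AddMonoidHom.mk' (fun X : sl2 k => (adPairing p k X).toZModLinearMap p)
      fun X Y => LinearMap.ext fun Z => by simp [map_add]).toZModLinearMap p
  have hinj : Function.Injective β := (injective_iff_map_eq_zero β).2 fun X hX =>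
    eq_zero_of_adPairing h2 fun Y => LinearMap.congr_fun hX Y
  obtain ⟨X, rfl⟩ := (LinearMap.injective_iff_surjective_of_finrank_eq_finrank
    Subspace.dual_finrank_eq.symm).1 hinj b
  suffices X = 0 by rw [this, map_zero]
  refine adRep_fixed_eq_zero hbig h2 fun g =>
    sub_eq_zero.1 (eq_zero_of_adPairing (p := p) h2 fun Y => ?_)
  have h1 : muG p g (adPairing p k X (adTwist rb g⁻¹ Y)) = adPairing p k X Y :=
    LinearMap.congr_fun (hb g) Y
  rw [← (isMuPairing_ad hfin hdet).equivariant, ← Module.End.mul_apply, ← map_mul, mul_inv_cancel,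
    map_one, Module.End.one_apply] at h1
  rw [map_sub, AddMonoidHom.sub_apply, h1, sub_self]

/-- The classes of `G_T` in the twisted adjoint outnumber the local invariants of the adjoint. -/
theorem le_finrank_adTwist_classes (hEuler : EulerFormula p) (hp2 : p ≠ 2) (hbig : BigImage rb)
    (hfin : GaloisFactorsThroughFiniteLevel rb) (hdet : DetCyc p rb)
    {T : Finset Nat.Primes} (hpT : pP p ∈ T) {K : Subgroup Gam} (hKn : K.Normal) (hK : K ∈ LS T)
    (hKrb : ∀ g ∈ K, rb g = 1) (hKμ : (cyc p).MuFix K)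
    (hfull : ∀ H : Subgroup Gam, K ≤ H → SFull H (placesOver H T)) :
    Finite (classes (adTwist rb) (selCocycles (adTwist rb) (natSet T))) ∧
      finrank (ZMod p) k * (∑ r ∈ T, finrank k
          (Representation.invariants (resRep (adRep rb) (decQ (r : ℕ)))) + 1) ≤
        finrank (ZMod p) (classes (adTwist rb) (selCocycles (adTwist rb) (natSet T))) := by
  have h2 : (2 : k) ≠ 0 := fun h => hp2 ((Nat.prime_dvd_prime_iff_eq Fact.out Nat.prime_two).1
    ((CharP.cast_eq_zero_iff k p 2).1 (by exact_mod_cast h)))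
  have : Module.Finite (ZMod p) k := Module.Finite.of_finite
  have : Finite (sl2 k) := Module.finite_of_finite k
  have hKπ : ∀ g ∈ K, primeRep p (adTwist rb) g = 1 := fun g hg =>
    primeRep_eq_one _ (adTwist_eq_one rb (hKrb g hg))
  obtain ⟨hf1, hf2, hχ⟩ := hEuler T hpT K hKn hK hKμ hfull (primeRep p (adTwist rb)) hKπ
  obtain ⟨heq, hfinC⟩ := finrank_classes_primeRep (p := p) (adTwist rb)
    ⟨K, hK, fun s hs => adTwist_eq_one rb (hKrb s hs)⟩
  obtain ⟨lam, hlam, hrec⟩ := exists_invariants p hp2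
  have hH2 := sum_finrank_le_H2 (primeRep p (adTwist rb)) (CFT.Bridge.globalInputs p hp2) hp2 lam
    hlam hrec hpT hK hKπ (dual_adTwist_eq_zero hfin hdet hbig h2) hf2
  have hloc : finrank (ZMod p) k * ∑ r ∈ T, finrank k
      (Representation.invariants (resRep (adRep rb) (decQ (r : ℕ)))) ≤
        finrank (ZMod p) (H2 (LS T) (primeRep p (adTwist rb))) := by
    rw [Finset.mul_sum]
    exact (Finset.sum_le_sum fun r _ => finrank_invariants_le_dualInv hfin hdet h2 r).trans hH2
  have h0 : finrank (ZMod p) (primeRep p (adTwist rb)).invariants = 0 := by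
    have hbot : (primeRep p (adTwist rb)).invariants = ⊥ := (Submodule.eq_bot_iff _).2 fun X hX =>
      adTwist_fixed_eq_zero hbig h2 fun g => hX g
    rw [hbot, finrank_bot]
  have hker : finrank (ZMod p) (LinearMap.ker (primeRep p (adTwist rb) complexConjugation - 1)) =
      finrank (ZMod p) k * 2 := by
    have h := finrank_mul_finrank (ZMod p) k (LinearMap.ker (adTwist rb complexConjugation - 1))
    rw [finrank_adTwist_fix_complexConjugation hdet hp2] at h
    rw [show primeRep p (adTwist rb) complexConjugation - 1 =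
        (adTwist rb complexConjugation - 1).restrictScalars (ZMod p)
          from LinearMap.ext fun _ => rfl,
      LinearMap.ker_restrictScalars]
    exact h.symm
  have hM : finrank (ZMod p) (sl2 k) = finrank (ZMod p) k * 3 := by
    rw [← finrank_mul_finrank (ZMod p) k, finrank_sl2]
  refine ⟨hfinC hf1, ?_⟩
  rw [heq, h0, hker, hM] at hχ
  rw [mul_add, mul_one]
  push_cast at hχ ⊢
  omega

omit [Finite k] [CharP k p] in
/-- Classes cut out by triviality on inertia are unramified local classes. -/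
theorem finrank_locSpace_inQ_le (hfin : GaloisFactorsThroughFiniteLevel rb) (r : Nat.Primes)
    (C : Nat.Primes → Submodule k (AG → sl2 k)) (hC : C r = locB1 (adRep rb) (inQ (r : ℕ))) :
    FiniteDimensional k (locSpace (adRep rb) C r) ∧
      finrank k (locSpace (adRep rb) C r) ≤
        finrank k (Representation.invariants (resRep (adRep rb) (decQ (r : ℕ)))) := by
  obtain ⟨hf, hle⟩ := finrank_unramified_le (adRep rb) (A := padicPlace (r : ℕ))
    (smooth_adRep_of_finiteLevel hfin)
    r.2 padicPlace_liesOverPrime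
  have hsub : locSpace (adRep rb) C r ≤ (trivOn (lvD (decQ (r : ℕ)))
      (resRep (adRep rb) (decQ (r : ℕ))) ((inQ (r : ℕ)).subgroupOf (decQ (r : ℕ)))).map
        (B1 (resRep (adRep rb) (decQ (r : ℕ)))).mkQ := by
    refine Submodule.map_mono ?_
    rintro _ ⟨x, ⟨hx, hxC⟩, rfl⟩
    rw [hC] at hxC
    obtain ⟨m, hm⟩ := hxC
    obtain ⟨⟨U, hU, hUx⟩, hxm⟩ := mem_Z1.1 hx
    exact ⟨mem_Z1.2 ⟨⟨_, Lv.comap_mem_comap _ hU, fun g s hs => hUx g s hs⟩,
      fun g g' => hxm g g'⟩, m, fun g hg => hm g hg⟩
  exact ⟨Submodule.finiteDimensional_of_le hsub, (Submodule.finrank_mono hsub).trans hle⟩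

variable (p) in
/-- Classes unramified outside `p`, `R` and `qv`, in `Cp`, trivial on the decomposition groups
at `R`. -/
def strictSpace (rb : AG →* M2 k) (R : Finset Nat.Primes) (Cp : Submodule k (AG → sl2 k)) {D : ℕ}
    (qv : Fin D → ℕ) : Submodule k (AG → sl2 k) :=
  selCocycles (adRep rb) (insert p (natSet R ∪ Finset.univ.image qv)) ⊓
    (Cp ⊓ ⨅ r ∈ R, locB1 (adRep rb) (decQ (r : ℕ)))

/-- The sum over `R` of the dimensions of the local invariants of the adjoint. -/
def strictDeficit (rb : AG →* M2 k) (R : Finset Nat.Primes) : ℕ :=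
  ∑ r ∈ R, finrank k (Representation.invariants (resRep (adRep rb) (decQ (r : ℕ))))

/-- Lowering the bound at one prime of `T` by `e - 1` and to zero at the primes of `R` lowers the
sum of the bounds by as much. -/
theorem sum_localBound_add {ι : Type} [DecidableEq ι] {T R : Finset ι} {a : ι} (ha : a ∈ T)
    (hRT : R ⊆ T) (haR : a ∉ R) (h0 : ι → ℕ) {e : ℕ} (he : e ≤ h0 a + 1) :
    ∑ r ∈ T, (if r = a then h0 r + 1 - e else if r ∈ R then 0 else h0 r) + (∑ r ∈ R, h0 r + e) =
      ∑ r ∈ T, h0 r + 1 := by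
  have key : ∑ r ∈ T, ((if r = a then h0 r + 1 - e else if r ∈ R then 0 else h0 r) +
      ((if r ∈ R then h0 r else 0) + if r = a then e else 0)) =
      ∑ r ∈ T, (h0 r + if r = a then 1 else 0) := by
    refine Finset.sum_congr rfl fun r _ => ?_
    by_cases hr : r = a
    · subst hr; simp [haR]; omega
    · by_cases hrR : r ∈ R <;> simp [hr, hrR]
  simpa [Finset.sum_add_distrib, Finset.sum_ite_mem, Finset.inter_eq_right.2 hRT, ha] using key

omit [Fact p.Prime] [Finite k] [Algebra (ZMod p) k] [CharP k p] in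
/-- A condition asking for triviality on a decomposition group leaves no local classes there. -/
theorem locSpace_eq_bot (C : Nat.Primes → Submodule k (AG → sl2 k)) (r : Nat.Primes)
    (hC : C r = locB1 (adRep rb) (decQ (r : ℕ))) : locSpace (adRep rb) C r = ⊥ := by
  refine (Submodule.eq_bot_iff _).2 ?_
  rintro _ ⟨_, ⟨x, hx, rfl⟩, rfl⟩
  obtain ⟨X, hX⟩ := hC ▸ hx.2
  exact (Submodule.Quotient.mk_eq_zero _).2 ⟨X, funext fun g => (hX g g.2).symm⟩

omit [CharP k p] in
/-- The classes of the adjoint unramified everywhere are finite dimensional. -/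
theorem finiteDimensional_classes_unramified (hEuler : EulerFormula p) (hp2 : p ≠ 2)
    (hfin : GaloisFactorsThroughFiniteLevel rb) (hdet : DetCyc p rb) :
    FiniteDimensional k (classes (adRep rb) (selCocycles (adRep rb) ∅)) := by
  obtain ⟨K, T₀, hKn, hKrb, hKμ, hT₀⟩ := exists_adequate (CFT.Bridge.globalInputs p hp2) hfin hdet
  have hρ : ∀ T, T₀ ⊆ T → ∃ U ∈ LS T, ∀ s ∈ U, adRep rb s = 1 := fun T hT =>
    ⟨K, (hT₀ T hT).2.1, fun s hs => adRep_eq_one rb (hKrb s hs)⟩
  have : Finite (sl2 k) := Module.finite_of_finite k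
  obtain ⟨hpT, hK, hfull⟩ := hT₀ T₀ subset_rfl
  obtain ⟨hf, -, -⟩ := hEuler T₀ hpT K hKn hK hKμ hfull (primeRep p (adRep rb)) fun g hg =>
    primeRep_eq_one _ (adRep_eq_one rb (hKrb g hg))
  have := (finrank_classes_primeRep (p := p) (adRep rb) (hρ T₀ subset_rfl)).2 hf
  have : FiniteDimensional k (classes (adRep rb) (selCocycles (adRep rb) (natSet T₀))) :=
    Module.Finite.of_finite
  exact Submodule.finiteDimensional_of_le
    (S₂ := classes (adRep rb) (selCocycles (adRep rb) (natSet T₀)))
    (Submodule.map_mono (inf_le_inf_left _ (unrOutside_mono _ (Finset.empty_subset _))))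

/-- Auxiliary primes, in number independent of the congruence, such that the classes unramified
outside them, `p` and `R`, small at `p` and trivial on the decomposition groups at `R`, span at
most as many dimensions less the local invariants at `R` and the defect `e` at `p`. -/
theorem exists_auxiliaryPrimes_strictAt {Q : M2 k → Prop} (hQ : Selects p rb Q)
    (hEuler : EulerFormula p) (hp2 : p ≠ 2) (hbig : BigImage rb)
    (hfin : GaloisFactorsThroughFiniteLevel rb) (hdet : DetCyc p rb)
    (hg0 : ∃ g, ∀ j : ℕ, det (rb g) ≠ (j : k) ^ 2)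
    (R : Finset Nat.Primes) (hRp : pP p ∉ R)
    (Cp : Submodule k (AG → sl2 k))
    (hfinCp : FiniteDimensional k (locSpace (adRep rb) (fun _ => Cp) (pP p)))
    (e : ℕ)
    (hCp : finrank k (locSpace (adRep rb) (fun _ => Cp) (pP p)) + e ≤
      finrank k
        (Representation.invariants (resRep (adRep rb) (decQ ((pP p : Nat.Primes) : ℕ)))) + 1) :
    ∃ D : ℕ, ∀ (m : ℕ) [NeZero m], p ∣ m → ∀ S : Finset ℕ, ∃ qv : Fin D → ℕ,
      Function.Injective qv ∧ (∀ i, qv i ∉ S ∧ GoodPrime rb m (qv i)) ∧
      (∀ i, ∀ P : ValuationSubring (AlgebraicClosure ℚ), P.LiesOverPrime (qv i) → ∀ φ : AG,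
        P.IsFrobeniusAt φ (qv i) → Q (rb φ)) ∧
      FiniteDimensional k (classes (adRep rb) (strictSpace p rb R Cp qv)) ∧
      finrank k (classes (adRep rb)
        (strictSpace p rb R Cp qv)) + (strictDeficit rb R + e) ≤ D := by
  classical
  obtain ⟨lam, hlam, hrec⟩ := exists_invariants p hp2
  obtain ⟨K, T₀, hKn, hKrb, hKμ, hT₀⟩ := exists_adequate (CFT.Bridge.globalInputs p hp2) hfin hdet
  have hρ : ∀ T, T₀ ⊆ T → ∃ U ∈ LS T, ∀ s ∈ U, adRep rb s = 1 := fun T hT =>
    ⟨K, (hT₀ T hT).2.1, fun s hs => adRep_eq_one rb (hKrb s hs)⟩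
  have : Finite (sl2 k) := Module.finite_of_finite k
  have hW := finiteDimensional_classes_unramified hEuler hp2 hfin hdet
  obtain ⟨T, hT', hdetect⟩ := exists_detect hp2 hbig hfin hW (T₀ ∪ R)
  have hT : T₀ ⊆ T := Finset.union_subset_left hT'
  have hRT : R ⊆ T := Finset.union_subset_right hT'
  obtain ⟨hpT, hKT, hfull⟩ := hT₀ T hT
  have hρT := hρ T hT
  have hρ'T : ∃ U ∈ LS T, ∀ s ∈ U, adTwist rb s = 1 :=
    ⟨K, hKT, fun s hs => adTwist_eq_one rb (hKrb s hs)⟩
  obtain ⟨hfinA, hn⟩ := le_finrank_adTwist_classes hEuler hp2 hbig hfin hdet hpT hKn hKT hKrb hKμ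
    hfull
  have hfdA : FiniteDimensional k (classes (adTwist rb) (selCocycles (adTwist rb) (natSet T))) :=
    Module.Finite.of_finite
  let C : Nat.Primes → Submodule k (AG → sl2 k) :=
    fun r => if r = pP p then Cp else
      if r ∈ R then locB1 (adRep rb) (decQ (r : ℕ)) else locB1 (adRep rb) (inQ (r : ℕ))
  let h0 : Nat.Primes → ℕ := fun r =>
    finrank k (Representation.invariants (resRep (adRep rb) (decQ (r : ℕ))))
  have hCeq : locSpace (adRep rb) C (pP p) = locSpace (adRep rb) (fun _ => Cp) (pP p) := by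
    rw [locSpace, locSpace, show C (pP p) = Cp from if_pos rfl]
  let ℓ : Nat.Primes → ℕ := fun r =>
    if r = pP p then h0 r + 1 - e else if r ∈ R then 0 else h0 r
  have hlocC : ∀ r, FiniteDimensional k (locSpace (adRep rb) C r) ∧
      finrank k (locSpace (adRep rb) C r) ≤ ℓ r := fun r => by
    by_cases hr : r = pP p
    · subst hr
      refine ⟨hCeq.symm ▸ hfinCp, ?_⟩
      rw [hCeq]
      simpa [ℓ] using Nat.le_sub_of_add_le hCp
    · by_cases hrR : r ∈ R
      · have hbot := locSpace_eq_bot (rb := rb) C r (by simp [C, hr, hrR])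
        rw [hbot]
        exact ⟨inferInstance, by rw [finrank_bot]; exact Nat.zero_le _⟩
      · simp only [ℓ, if_neg hr, if_neg hrR]
        exact finrank_locSpace_inQ_le hfin r C (by simp [C, hr, hrR])
  have hbal : ∀ (a : k) (X Y : sl2 k), adPairing p k (a • X) Y = adPairing p k X (a • Y) :=
    adPairing_smul
  have hP := isMuPairing_ad hfin hdet
  obtain ⟨hfdS, hbound⟩ := finrank_sel_le hP hbal (lam := lam) T C hpT hrec
    hρT hρ'T (hdetect T subset_rfl) (fun r _ => (hlocC r).1) (fun r _ => (hlocC r).2) hfdA hn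
  have hfdD : FiniteDimensional k
      (classes (adTwist rb) (dualSel (adRep rb) (adTwist rb) hP hbal lam T C)) :=
    Submodule.finiteDimensional_of_le (Submodule.map_mono (dualSel_le hP hbal T C))
  set D := finrank k (classes (adTwist rb) (dualSel (adRep rb) (adTwist rb) hP hbal lam T C))
    with hD
  refine ⟨D, fun m _ hpm S => ?_⟩
  obtain ⟨qv, hinj, hq, hqQ, hqdet⟩ := exists_goodPrimes_detect hp2 hbig hfin hdet hg0 hQ m hpm D
    (classes (adTwist rb) (dualSel (adRep rb) (adTwist rb) hP hbal lam T C))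
    (Submodule.map_mono fun y hy => (dualSel_le hP hbal T C hy).1) le_rfl (S ∪ natSet T)
  let Qv : Fin D → Nat.Primes := fun i => ⟨qv i, (hq i).2.1⟩
  have hQT : ∀ i, Qv i ∉ T := fun i h =>
    (hq i).1 (Finset.mem_union_right _ (mem_natSet.2 h))
  have heq := selCond_union_eq hP hbal (lam := lam) T C hpT hrec hρT hρ'T
    Qv (fun i j h => hinj (congrArg Subtype.val h)) hQT hfdD (by rw [Fintype.card_fin])
    (fun y hy hloc => hqdet y (dualSel_le hP hbal T C hy).1 (Submodule.mem_map_of_mem hy)
      fun i P hP' φ hφ => by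
        have : Fact (qv i).Prime := ⟨(hq i).2.1⟩
        obtain ⟨X, hX⟩ := locB1_decomposition_of_decQ (q := qv i)
          (dualSel_le hP hbal T C hy).1 (hloc i) hP'
        exact ⟨X, (hX φ (Gal.isFrobeniusAt_iff.1 hφ).1).symm⟩)
    (trK p k) trK_nondegenerate fun i =>
      exists_detecting_of_goodPrime lam hp2 hlam hfin hdet hpm (hq i).2
  have hle : classes (adRep rb)
      (selCocycles (adRep rb) (insert p (natSet R ∪ Finset.univ.image qv)) ⊓
      (Cp ⊓ ⨅ r ∈ R, locB1 (adRep rb) (decQ (r : ℕ)))) ≤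
      classes (adRep rb) (selCond (adRep rb) T C T) := by
    refine Submodule.map_mono ?_
    rw [← heq]
    rintro x ⟨hx, hxp, hxR⟩
    refine (mem_selCond _ T C).2 ⟨⟨hx.1, unrOutside_mono _ ?_ hx.2⟩, fun r hr => ?_⟩
    · refine Finset.insert_subset (mem_natSet.2 (Finset.mem_union_left _ hpT))
        (Finset.union_subset (fun n hn => ?_) (Finset.image_subset_iff.2 fun i _ => ?_))
      · obtain ⟨r, hr, rfl⟩ := Finset.mem_map.1 hn
        exact mem_natSet.2 (Finset.mem_union_left _ (hRT hr))
      · exact (mem_natSet (r := Qv i)).2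
          (Finset.mem_union_right _ (Finset.mem_image_of_mem _ (Finset.mem_univ i)))
    · show x ∈ C r
      by_cases h : r = pP p
      · simpa [C, h] using hxp
      · by_cases hrR : r ∈ R
        · simp only [C, if_neg h, if_pos hrR]
          exact (Submodule.mem_iInf _).1 ((Submodule.mem_iInf _).1 hxR r) hrR
        · simp only [C, if_neg h, if_neg hrR]
          refine (mem_unrOutside _).1 hx.2 (r : ℕ) r.2 ?_ _ padicPlace_liesOverPrime
          rw [Finset.mem_insert, Finset.mem_union, Finset.mem_image]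
          rintro (h' | h' | ⟨i, -, h'⟩)
          · exact h (Subtype.ext h')
          · exact hrR (mem_natSet.1 h')
          · exact hQT i (by rwa [show Qv i = r from Subtype.ext h'])
  refine ⟨qv, hinj, fun i => ⟨fun h => (hq i).1 (Finset.mem_union_left _ h), (hq i).2⟩, hqQ,
    Submodule.finiteDimensional_of_le hle,
      (Nat.add_le_add_right (Submodule.finrank_mono hle) _).trans ?_⟩
  have he : e ≤ h0 (pP p) + 1 := le_trans (Nat.le_add_left _ _) hCp
  have hsum : ∑ r ∈ T, ℓ r + (strictDeficit rb R + e) = ∑ r ∈ T, h0 r + 1 :=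
    sum_localBound_add hpT hRT hRp h0 he
  have hd : 0 < finrank (ZMod p) k := by
    have : Module.Finite (ZMod p) k := Module.Finite.of_finite
    exact finrank_pos
  refine Nat.le_of_mul_le_mul_left ?_ hd
  have : finrank (ZMod p) k * (∑ r ∈ T, ℓ r + (strictDeficit rb R + e)) =
      finrank (ZMod p) k * (∑ r ∈ T, h0 r + 1) := by rw [hsum]
  linarith

/-- Auxiliary primes, in number independent of the congruence, such that the classes unramified
outside them and `p` satisfying a small condition at `p` span at most as many dimensions. -/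
theorem exists_auxiliary_primes (hEuler : EulerFormula p) (hp2 : p ≠ 2) (hbig : BigImage rb)
    (hfin : GaloisFactorsThroughFiniteLevel rb) (hdet : DetCyc p rb)
    (hg0 : ∃ g, ∀ j : ℕ, det (rb g) ≠ (j : k) ^ 2)
    (Cp : Submodule k (AG → sl2 k))
    (hfinCp : FiniteDimensional k (locSpace (adRep rb) (fun _ => Cp) (pP p)))
    (hCp : finrank k (locSpace (adRep rb) (fun _ => Cp) (pP p)) ≤
      finrank k (Representation.invariants (resRep (adRep rb) (decQ ((pP p : Nat.Primes) : ℕ))))
        + 1) :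
    ∃ D : ℕ, ∀ (m : ℕ) [NeZero m], p ∣ m → ∀ S : Finset ℕ, ∃ qv : Fin D → ℕ,
      Function.Injective qv ∧ (∀ i, qv i ∉ S ∧ GoodPrime rb m (qv i)) ∧
      FiniteDimensional k
        (classes (adRep rb) (selCocycles (adRep rb) (insert p (Finset.univ.image qv)) ⊓ Cp)) ∧
      finrank k
        (classes (adRep rb) (selCocycles (adRep rb) (insert p (Finset.univ.image qv)) ⊓ Cp))
          ≤ D := by
  obtain ⟨D, hD⟩ := exists_auxiliaryPrimes_strictAt (selects_true hp2 hbig hdet) hEuler hp2 hbig
    hfin hdet hg0 ∅ (Finset.notMem_empty _) Cp hfinCp 0 hCp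
  refine ⟨D, fun m _ hpm S => ?_⟩
  obtain ⟨qv, hinj, hq, -, h⟩ := hD m hpm S
  have he : strictSpace p rb ∅ Cp qv =
      selCocycles (adRep rb) (insert p (Finset.univ.image qv)) ⊓ Cp := by
    rw [strictSpace, show natSet (∅ : Finset Nat.Primes) = ∅ from rfl]
    simp
  rw [he] at h
  exact ⟨qv, hinj, hq, h.1, le_trans (Nat.le_add_right _ _) h.2⟩

end Fermat.Agent.TW
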