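import Fermat.Agent.PT.PlaceInv
import Fermat.Agent.PT.Recip
import Fermat.Agent.TW.Local.Cup

/-!
# Localisation of classes unramified outside a finite set

Such classes are locally trivial outside the set in degree two and factor through a level of
`G_T`. Used for the reciprocity law of cup products.
-/

noncomputable section

namespace Fermat.Agent.TW

open Fermat.Agent.PT Fermat.Agent.PT.Lv

variable {p : ℕ} [Fact p.Prime]

theorem Hm_zero_mem_LS {T : Finset Nat.Primes} (hpT : pP p ∈ T) : Hm p 0 ∈ LS T := by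
  refine mem_LS_of_inertia (Hm_mem 0) fun r hr A hA σ hσ => mem_Hm.2 (Units.ext ?_)
  have hrp : ¬ (r : ℕ) ∣ p := fun h =>
    hr (by rwa [show r = pP p from Subtype.ext ((Nat.prime_dvd_prime_iff_eq r.2 Fact.out).1 h)])
  refine Gal.inertia_rootOfUnity r.2 hA hσ (m := p) hrp ?_
  have h := congrArg Units.val (zet_pow_pow (p := p) (0 + 1))
  rwa [Units.val_pow_eq_pow_val, pow_one] at h

/-- A class unramified outside `T` is locally trivial outside `T`. -/
theorem locQ_eq_zero_of_LS {T : Finset Nat.Primes} (hpT : pP p ∈ T)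
    {f : Gam × Gam → ZMod p} (hfS : f ∈ Z2 (LS T) (muG p)) (hf : f ∈ Z2 LG (muG p))
    {r : Nat.Primes} (hr : r ∉ T) :
    locQ p (r : ℕ) (mk2 LG (muG p) ⟨f, hf⟩) = 0 := by
  have hH := Hm_zero_mem_LS hpT
  have hμ : (cyc p).MuFix (Hm p 0) := Hm_muFix 0
  refine resZero_injective (p := p) (q := (r : ℕ)) ?_
  rw [map_zero, resZero, ← locH2_glRes (q := (r : ℕ)) hμ 1]
  have hf' : pp2 (Hm p 0).subtype (LinearMap.id : ZMod p →ₗ[ZMod p] ZMod p) f ∈
      Z2 (LSH T (Hm p 0)) (triv (ZMod p) ↥(Hm p 0)) := by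
    rw [← muG_comp hμ]
    exact pp2_mem_Z2 (compat_comap _ _) (φ := LinearMap.id) (fun _ _ => rfl) hfS
  have e : glRes hμ (mk2 LG (muG p) ⟨f, hf⟩) =
      infS p T (Hm p 0) (mk2 (LSH T (Hm p 0)) (triv (ZMod p) ↥(Hm p 0)) ⟨_, hf'⟩) := by
    simp only [glRes, LinearMap.comp_apply, LinearEquiv.coe_coe, res_mk2, H2eq_mk2, infS_mk2]
    rfl
  rw [e]
  exact locH2_infS_eq_zero hH hr 1 _

variable {k : Type*} [Field k] {M : Type*} [AddCommGroup M] [Module k M]
  {ρ : Representation k AG M} {T : Finset Nat.Primes}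

/-- Primes of a finite set as natural numbers. -/
def natSet (T : Finset Nat.Primes) : Finset ℕ := T.map ⟨Subtype.val, Subtype.val_injective⟩

theorem mem_natSet {r : Nat.Primes} : (r : ℕ) ∈ natSet T ↔ r ∈ T :=
  Finset.mem_map' _

/-- An unramified cocycle of a representation unramified outside `T` lives on a level of `G_T`. -/
theorem exists_level_LS {x : AG → M} (hx : x ∈ selCocycles ρ (natSet T))
    (hρ : ∃ U ∈ LS T, ∀ s ∈ U, ρ s = 1) :
    x ∈ Z1 (LS T) ρ := by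
  obtain ⟨hxZ, hxu⟩ := hx
  obtain ⟨⟨V, hV, hVx⟩, hxm⟩ := mem_Z1.1 hxZ
  obtain ⟨U, hU, hUρ⟩ := hρ
  obtain ⟨U', hU', hU'U, hn⟩ := (LS T).exists_normal hU
  let N : Subgroup AG :=
    { carrier := {g | g ∈ U' ∧ x g = 0}
      one_mem' := ⟨U'.one_mem, Z1_apply_one hxZ⟩
      mul_mem' := fun {a b} ha hb => ⟨mul_mem ha.1 hb.1, by
        rw [hxm, hb.2, map_zero, zero_add, ha.2]⟩
      inv_mem' := fun {a} ha => ⟨inv_mem ha.1, by
        have h := hxm a⁻¹ a
        rwa [inv_mul_cancel, Z1_apply_one hxZ, ha.2, map_zero, zero_add, eq_comm] at h⟩ }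
  have hNLG : N ∈ LG := LG.mem_of_le (LG.inf_mem (LS_le_LG hU') hV) fun g hg => ⟨hg.1, by
    have h := hVx 1 g hg.2
    rwa [one_mul, Z1_apply_one hxZ] at h⟩
  refine mem_Z1.2 ⟨⟨N, mem_LS_of_inertia hNLG fun r hr A hA σ hσ => ?_, fun g s hs => ?_⟩, hxm⟩
  · obtain ⟨m, hm⟩ := (mem_unrOutside ρ).1 hxu r r.2 (fun h => hr (mem_natSet.1 h)) A hA
    have hσU : σ ∈ U' := InN_of_mem_LS hU' hr A hA hσ
    exact ⟨hσU, by rw [hm σ hσ, hUρ σ (hU'U hσU), Module.End.one_apply, sub_self]⟩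
  · rw [hxm, hs.2, map_zero, zero_add]

end Fermat.Agent.TW
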